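/-
Item 75a, (G_M), piece GM-A (helper29): char-free port of `S24lib/AlgCount.lean`.

For `D : FiberData K F L u I g` over an algebraically closed field `K` of ANY characteristic:
* `ffSep_of_fiberData`   : `F / K(u)` is finite and separable (`FFSep K u`);
* `finrank_of_fiberData` : `[F : K(u)] = |I|`;
* `card_places_of_fiberData` : the places above `u = 0` are in bijection with the orbits of `g`.

Separability: if the expansions `σ_i f` of `f` are pairwise distinct, then `f` is a root of the
separable polynomial `∏ (X - σ_i f) ∈ K(u)[X]`, so `f` is separable over `K(u)`.  The other `f`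
lie in the finite union of the proper `K`-subspaces `{σ_i = σ_j}`, `i ≠ j`; a vector space over
an infinite field is not a finite union of proper subspaces, so the separable closure is `F`.
(complete proofs)
-/
import Mathlib
import Fermat.Agent.S24lib.AlgCount
import Fermat.Agent.FFlib.FSPrimes

set_option autoImplicit false
set_option linter.style.haveILetI false

noncomputable section

namespace Fermat.Agent.GM

open AlgebraicCurve IntermediateField WithZero Polynomial
open Fermat.Agent.S24lib Fermat.Agent.FFlib

variable {K F L : Type} [Field K] [Field F] [Algebra K F] [Field L] [Algebra K L]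
variable {u : F} {G : Type} [Group G] {I : Type} [Fintype I] [MulAction G I] {g : G}

/-- the `K`-subspace of `F` on which two expansions agree -/
def gmaEqSub (D : FiberData K F L u I g) (i j : I) : Submodule K F where
  carrier := {f | D.σ i f = D.σ j f}
  add_mem' := by
    intro a b ha hb
    show D.σ i (a + b) = D.σ j (a + b)
    rw [map_add, map_add, show D.σ i a = D.σ j a from ha, show D.σ i b = D.σ j b from hb]
  zero_mem' := by
    show D.σ i 0 = D.σ j 0
    rw [map_zero, map_zero]
  smul_mem' := by
    intro c f hf
    show D.σ i (c • f) = D.σ j (c • f)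
    rw [Algebra.smul_def, map_mul, map_mul, D.map_const, D.map_const,
      show D.σ i f = D.σ j f from hf]

lemma gma_mem_eqSub (D : FiberData K F L u I g) (i j : I) (f : F) :
    f ∈ gmaEqSub D i j ↔ D.σ i f = D.σ j f := Iff.rfl

lemma gmaEqSub_ne_top (D : FiberData K F L u I g) {i j : I} (hij : i ≠ j) :
    gmaEqSub D i j ≠ ⊤ := by
  intro h
  apply hij
  apply D.inj
  refine RingHom.ext fun f => ?_
  have : f ∈ gmaEqSub D i j := by rw [h]; trivial
  exact this

/-- an element with pairwise distinct expansions is separable over `K(u)` -/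
theorem gma_isSeparable_of_injective (D : FiberData K F L u I g) [Nonempty I] {f : F}
    (hf : Function.Injective fun i => D.σ i f) : IsSeparable K⟮u⟯ f := by
  obtain ⟨P, hmon, -, hcoeff, heval, hmap⟩ := D.exists_sym_poly f
  have hl : P ∈ lifts (algebraMap K⟮u⟯ F) := by
    rw [lifts_iff_coeff_lifts]
    intro k
    exact ⟨⟨P.coeff k, hcoeff k⟩, rfl⟩
  obtain ⟨q, hq, -, hqm⟩ := lifts_and_natDegree_eq_and_monic hl hmon
  have h0 : aeval f q = 0 := by rw [aeval_def, ← eval_map, hq, heval]
  obtain ⟨i₀⟩ := ‹Nonempty I›
  have hPsep : (P.map (D.σ i₀)).Separable := by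
    rw [hmap i₀]
    exact separable_prod_X_sub_C_iff.2 hf
  have hqsep : q.Separable := by
    rw [← hq, Polynomial.map_map] at hPsep
    exact (separable_map _).1 hPsep
  exact hqsep.of_dvd (minpoly.dvd K⟮u⟯ f h0)

/-- **separability** of `F / K(u)` from the fibre data (any characteristic) -/
theorem gma_isSeparable [Infinite K] (D : FiberData K F L u I g) [Nonempty I] :
    Algebra.IsSeparable K⟮u⟯ F := by
  classical
  set S : Submodule K F := (separableClosure K⟮u⟯ F).toSubalgebra.toSubmodule.restrictScalars K
    with hS
  let s : Finset (Submodule K F) :=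
    insert S ((Finset.univ.filter fun p : I × I => p.1 ≠ p.2).image
      fun p => gmaEqSub D p.1 p.2)
  have hcover : ⋃ p ∈ s, (p : Set F) = Set.univ := by
    refine Set.eq_univ_of_forall fun f => ?_
    by_cases hf : Function.Injective fun i => D.σ i f
    · refine Set.mem_biUnion (x := S) (Finset.mem_insert_self _ _) ?_
      show f ∈ separableClosure K⟮u⟯ F
      rw [mem_separableClosure_iff]
      exact gma_isSeparable_of_injective D hf
    · rw [Function.Injective] at hf
      push Not at hf
      obtain ⟨i, j, hij, hne⟩ := hf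
      refine Set.mem_biUnion (x := gmaEqSub D i j) ?_ hij
      refine Finset.mem_insert_of_mem (Finset.mem_image.2 ⟨(i, j), ?_, rfl⟩)
      exact Finset.mem_filter.2 ⟨Finset.mem_univ _, hne⟩
  have htop := Subspace.top_mem_of_biUnion_eq_univ hcover
  rcases Finset.mem_insert.1 htop with h | h
  · refine ⟨fun f => ?_⟩
    have : f ∈ S := by rw [← h]; trivial
    exact mem_separableClosure_iff.1 this
  · obtain ⟨p, hp, hpe⟩ := Finset.mem_image.1 h
    exact absurd hpe (gmaEqSub_ne_top D (Finset.mem_filter.1 hp).2)

/-- `F / K(u)` is finite (any characteristic) -/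
theorem gma_finiteDimensional [Infinite K] (D : FiberData K F L u I g) [Nonempty I] :
    FiniteDimensional K⟮u⟯ F := by
  have := D.isAlgebraic
  have := gma_isSeparable D
  exact (algFinite_of_natDegree_le (Fintype.card I) D.natDegree_minpoly_le).1

/-- `[F : K(u)] = |I|` (any characteristic; `K` infinite) -/
theorem gma_finrank_eq [Infinite K] (D : FiberData K F L u I g) [Nonempty I] :
    Module.finrank K⟮u⟯ F = Fintype.card I := by
  have := D.isAlgebraic
  have := gma_isSeparable D
  have hfd := gma_finiteDimensional D
  refine le_antisymm (algFinite_of_natDegree_le (Fintype.card I) D.natDegree_minpoly_le).2 ?_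
  obtain ⟨i₀⟩ := ‹Nonempty I›
  let : Algebra K⟮u⟯ (LaurentSeries L) := ((D.σ i₀).comp (algebraMap K⟮u⟯ F)).toAlgebra
  let φ : I → (F →ₐ[K⟮u⟯] LaurentSeries L) := fun i ↦
    { D.σ i with
      commutes' := fun a ↦ D.σ_eq_of_mem_adjoin i i₀ a.2 }
  have hφ : Function.Injective φ := by
    intro i i' h
    apply D.inj
    have := congrArg (fun ψ : F →ₐ[K⟮u⟯] LaurentSeries L ↦ (ψ : F →+* LaurentSeries L)) h
    exact this
  calc Fintype.card I = Nat.card I := (Nat.card_eq_fintype_card).symm
    _ ≤ Nat.card (F →ₐ[K⟮u⟯] LaurentSeries L) := Nat.card_le_card_of_injective φ hφ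
    _ ≤ Module.finrank K⟮u⟯ F := card_algHom_le_finrank K⟮u⟯ F (LaurentSeries L)

/-- **GM-A (1).** A function field with `|I|` distinct expansions is separable over `K(u)`
(any characteristic). -/
theorem ffSep_of_fiberData [IsAlgClosed K] [Nonempty I] (D : FiberData K F L u I g) :
    FFSep K u where
  trans := D.transcendental_u
  fin := gma_finiteDimensional D
  sep := gma_isSeparable D

/-- **GM-A (2).** `[F : K(u)] = |I|`. -/
theorem finrank_of_fiberData [IsAlgClosed K] [Nonempty I] (D : FiberData K F L u I g) :
    Module.finrank K⟮u⟯ F = Fintype.card I :=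
  gma_finrank_eq D

/-- **GM-A (3).** The places above `u = 0` are in bijection with the orbits of `g` on `I`. -/
theorem card_places_of_fiberData [IsAlgClosed K] [Nonempty I] (D : FiberData K F L u I g) :
    Nat.card {v : Place K F // 0 < v.ord u}
      = Nat.card (MulAction.orbitRel.Quotient (Subgroup.zpowers g) I) := by
  classical
  have hFF : FFSep K u := ffSep_of_fiberData D
  letI : Fintype {v : Place K F // 0 < v.ord u} :=
    Fintype.subtype (fsZeros K u) (fun v ↦ fsMem_zeros_iff v)
  letI : Fintype (MulAction.orbitRel.Quotient (Subgroup.zpowers g) I) := Fintype.ofFinite _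
  -- the map orbits → places
  let Φ : MulAction.orbitRel.Quotient (Subgroup.zpowers g) I → {v : Place K F // 0 < v.ord u} :=
    Quotient.lift (fun i ↦ ⟨D.place i, D.place_ord_u_pos i⟩) (by
      rintro a b ⟨h, rfl⟩
      exact Subtype.ext (D.place_zpowers_smul h b))
  have hΦ : Function.Surjective Φ := by
    rintro ⟨v, hv⟩
    obtain ⟨i, m, hm, h⟩ := D.exists_index v hv
    exact ⟨⟦i⟧, Subtype.ext (D.place_eq_of_index hm h)⟩
  -- weights
  let c : MulAction.orbitRel.Quotient (Subgroup.zpowers g) I → ℕ := fun ω ↦ Nat.card ω.orbit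
  let e : {v : Place K F // 0 < v.ord u} → ℕ := fun v ↦ (v.1.ord u).toNat
  have hc : ∀ ω, 0 < c ω := by
    intro ω
    induction ω using Quotient.inductionOn' with
    | h i =>
      show 0 < Nat.card (MulAction.orbitRel.Quotient.orbit (Quotient.mk'' i))
      rw [MulAction.orbitRel.Quotient.orbit_mk, Nat.card_pos_iff]
      exact ⟨⟨⟨i, MulAction.mem_orbit_self i⟩⟩, Set.toFinite _ |>.to_subtype⟩
  have he : ∀ ω, e (Φ ω) ≤ c ω := by
    intro ω
    induction ω using Quotient.inductionOn' with
    | h i =>
      show ((D.place i).ord u).toNat ≤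
        Nat.card (MulAction.orbitRel.Quotient.orbit (Quotient.mk'' i))
      rw [MulAction.orbitRel.Quotient.orbit_mk]
      have := D.place_ord_u_le i
      omega
  have hsum : ∑ v, e v = ∑ ω, c ω := by
    have h1 : ∑ ω, c ω = Fintype.card I := by
      have := Fintype.card_congr (MulAction.selfEquivSigmaOrbits' (Subgroup.zpowers g) I)
      rw [this, Fintype.card_sigma]
      refine Finset.sum_congr rfl fun ω _ ↦ ?_
      show Nat.card ω.orbit = _
      rw [Nat.card_eq_fintype_card]
    have h2 : ((∑ v, e v : ℕ) : ℤ) = Module.finrank K⟮u⟯ F := by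
      rw [← fsSum_ord_zeros (K := K) (x := u)]
      push_cast
      rw [Finset.sum_subtype (fsZeros K u) (fun v ↦ fsMem_zeros_iff v) (fun v ↦ v.ord u)]
      refine Finset.sum_congr rfl fun v _ ↦ ?_
      show (((v.1.ord u).toNat : ℕ) : ℤ) = v.1.ord u
      exact Int.toNat_of_nonneg v.2.le
    rw [finrank_of_fiberData D] at h2
    rw [h1]
    exact_mod_cast h2
  have := algCount_aux Φ hΦ c e hc he hsum
  rw [Nat.card_eq_fintype_card, Nat.card_eq_fintype_card]
  exact this

end Fermat.Agent.GM
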