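/-
Item 75a, part (G_M) (architect helper21): genus INEQUALITY  g(F_M) ≤ g(F_{M,k})  for the modular
function fields at an auxiliary level `M` without elliptic points (`4 ∣ M` or `9 ∣ M`), `ℓ ∤ M`.
Interface file: notation only.  Blueprint: NOTES/GM_blueprint.md.
-/
import Mathlib
import Fermat.Prelude.Def_ModularCurve_ReductionModL

set_option autoImplicit false

noncomputable section

namespace Fermat.Agent.GM

open AlgebraicCurve ModularCurve IntermediateField

/-- the function field of `X₀(M)` over a field `k`: `k(j̄(q^d) : d ∣ M) ⊂ k((q))` -/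
abbrev Fk (k : Type) [Field k] (M : ℕ) : Type := ↥(modularFunctionFieldFullC k M)

/-- `j̄ ∈ F_k(M)` -/
def jk (k : Type) [Field k] (M : ℕ) : Fk k M := ⟨jqModC k, jqModC_mem_full k M⟩

@[simp] theorem coe_jk (k : Type) [Field k] (M : ℕ) :
    ((jk k M : Fk k M) : LaurentSeries k) = jqModC k := rfl

/-- the inclusion `F_k(M₀) ⊆ F_k(M)` for `M₀ ∣ M`, as a `k`-algebra homomorphism -/
def inclK (k : Type) [Field k] {M₀ M : ℕ} [NeZero M₀] [NeZero M] (h : M₀ ∣ M) :
    Fk k M₀ →ₐ[k] Fk k M :=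
  (IntermediateField.inclusion (full_degeneracyC_le k h) :
    modularFunctionFieldFullC k M₀ →ₐ[k] modularFunctionFieldFullC k M)

@[simp] theorem coe_inclK (k : Type) [Field k] {M₀ M : ℕ} [NeZero M₀] [NeZero M] (h : M₀ ∣ M)
    (x : Fk k M₀) : ((inclK k h x : Fk k M) : LaurentSeries k) = (x : LaurentSeries k) :=
  IntermediateField.coe_inclusion _ x

theorem inclK_jk (k : Type) [Field k] {M₀ M : ℕ} [NeZero M₀] [NeZero M] (h : M₀ ∣ M) :
    inclK k h (jk k M₀) = jk k M :=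
  Subtype.ext (coe_inclK k h (jk k M₀))

/-- the algebra structure of `F_k(M)` over `F_k(M₀)` (use with `letI`) -/
@[reducible] def algK (k : Type) [Field k] {M₀ M : ℕ} [NeZero M₀] [NeZero M] (h : M₀ ∣ M) :
    Algebra (Fk k M₀) (Fk k M) :=
  (inclK k h).toRingHom.toAlgebra

theorem isScalarTower_algK (k : Type) [Field k] {M₀ M : ℕ} [NeZero M₀] [NeZero M] (h : M₀ ∣ M) :
    letI := algK k h
    IsScalarTower k (Fk k M₀) (Fk k M) :=
  letI := algK k h
  IsScalarTower.of_algebraMap_eq fun c => ((inclK k h).commutes c).symm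

/-- the auxiliary level condition: no elliptic points and `ℓ ∤ M` is possible -/
def IsAuxLevel (ℓ M : ℕ) : Prop := ¬ ℓ ∣ M ∧ ((ℓ ≠ 2 ∧ 4 ∣ M) ∨ (ℓ = 2 ∧ 9 ∣ M))

/-- the base level `M₀` (4 for odd `ℓ`, 9 for `ℓ = 2`) -/
def baseLevel (ℓ : ℕ) : ℕ := if ℓ = 2 then 9 else 4

instance (ℓ : ℕ) : NeZero (baseLevel ℓ) := ⟨by unfold baseLevel; split_ifs <;> norm_num⟩

theorem baseLevel_dvd {ℓ M : ℕ} (h : IsAuxLevel ℓ M) : baseLevel ℓ ∣ M := by
  unfold baseLevel
  rcases h.2 with ⟨h2, h4⟩ | ⟨h2, h9⟩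
  · rwa [if_neg h2]
  · rwa [if_pos h2]

end Fermat.Agent.GM

end
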