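/-
Item 75a, part (G_M), piece GM/Cusps (helper28): the consequences of the fibre data over the
cusps of `F_k(M)` (GM-R) by the algebraic block (GM-A), for ANY algebraically closed field `k`:

* `FFSep k (jk k M)⁻¹`,
* (★) `[F_k(M) : k(j̄)] = ψ(M)`,
* the number of cusps of `F_k(M)` is `cuspCount M`.

Hypothesis-based versions (`*_of`): the three theorems of GM-A enter as the Prop `AlgSepStatement`
(verbatim the signatures of `NOTES/GM_signatures.lean.txt`), the fibre data as a `Nonempty`.
-/
import Mathlib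
import Fermat.Agent.GM.Defs
import Fermat.Agent.S24lib.FiberData
import Fermat.Agent.S24lib.Embed
import Fermat.Agent.FFlib.FSPrimes
import Fermat.Agent.S20_Comb
import Fermat.Prelude.Def_ModularCurve_GenusNumerics

set_option autoImplicit false

noncomputable section

namespace Fermat.Agent.GM

open AlgebraicCurve ModularCurve IntermediateField CongruenceSubgroup
open Fermat.Agent.S24lib Fermat.Agent.FFlib
open scoped MatrixGroups

/-- the three theorems of GM-A (`GM/AlgSep.lean`) as one statement. -/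
def AlgSepStatement : Prop :=
  ∀ {K F L : Type} [Field K] [Field F] [Algebra K F] [Field L] [Algebra K L] {u : F}
    {G : Type} [Group G] {I : Type} [Fintype I] [MulAction G I] {g : G}
    [IsAlgClosed K] [Nonempty I] (_D : FiberData K F L u I g),
    FFSep K u ∧ Module.finrank K⟮u⟯ F = Fintype.card I ∧
      Nat.card {v : Place K F // 0 < v.ord u}
        = Nat.card (MulAction.orbitRel.Quotient (Subgroup.zpowers g) I)

section Of

variable (hAS : AlgSepStatement) {k : Type} [Field k] [IsAlgClosed k] (M : ℕ) [NeZero M]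
  (hD : Nonempty (FiberData k (Fk k M) k ((jk k M)⁻¹) (SL(2, ℤ) ⧸ Gamma0 M) ModularGroup.T))

include hAS hD

theorem ffSep_jk_inv_of : FFSep k ((jk k M)⁻¹) := by
  obtain ⟨D⟩ := hD
  have : Nonempty (SL(2, ℤ) ⧸ Gamma0 M) := ⟨QuotientGroup.mk 1⟩
  exact (hAS D).1

/-- **(★)** Igusa: the degree of `F_{M,k}` over `k(j̄⁻¹)` is `ψ(M)`. -/
theorem finrank_Fk_of :
    Module.finrank k⟮(jk k M)⁻¹⟯ (Fk k M) = dedekindPsi M := by
  obtain ⟨D⟩ := hD
  have : Nonempty (SL(2, ℤ) ⧸ Gamma0 M) := ⟨QuotientGroup.mk 1⟩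
  rw [(hAS D).2.1, ← Nat.card_eq_fintype_card]
  exact Fermat.Agent.S20lib.card_quot_Gamma0 M

/-- the number of cusps of `F_{M,k}`. -/
theorem card_cusps_Fk_of :
    Nat.card {v : Place k (Fk k M) // 0 < v.ord ((jk k M)⁻¹)} = cuspCount M := by
  obtain ⟨D⟩ := hD
  have : Nonempty (SL(2, ℤ) ⧸ Gamma0 M) := ⟨QuotientGroup.mk 1⟩
  rw [(hAS D).2.2]
  exact Fermat.Agent.S20lib.card_orbits_T M

end Of

end Fermat.Agent.GM

end
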