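/-
Item 75a, part (G_M), piece GM/Cusps (helper28), final form: GM-A (`GM/AlgSep.lean`, helper29)
applied to the fibre data over the cusps of `F_k(M)`, for ANY algebraically closed field `k`.
The fibre data enters as `hD : Nonempty (FiberData …)` (= the conclusion of GM-R
`exists_fiberData_modL'`).
-/
import Mathlib
import Fermat.Agent.GM.Cusps
import Fermat.Agent.GM.AlgSep

set_option autoImplicit false

noncomputable section

namespace Fermat.Agent.GM

open AlgebraicCurve ModularCurve IntermediateField CongruenceSubgroup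
open Fermat.Agent.S24lib Fermat.Agent.FFlib
open scoped MatrixGroups

/-- GM-A, packaged. -/
theorem algSepStatement : AlgSepStatement :=
  fun D => ⟨ffSep_of_fiberData D, finrank_of_fiberData D, card_places_of_fiberData D⟩

variable {k : Type} [Field k] [IsAlgClosed k] (M : ℕ) [NeZero M]
  (hD : Nonempty (FiberData k (Fk k M) k ((jk k M)⁻¹) (SL(2, ℤ) ⧸ Gamma0 M) ModularGroup.T))

include hD

theorem ffSep_jk_inv_of_fiberData : FFSep k ((jk k M)⁻¹) :=
  ffSep_jk_inv_of algSepStatement M hD

/-- **(★)** Igusa: the degree of `F_{M,k}` over `k(j̄⁻¹)` is `ψ(M)`. -/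
theorem finrank_Fk_of_fiberData :
    Module.finrank k⟮(jk k M)⁻¹⟯ (Fk k M) = dedekindPsi M :=
  finrank_Fk_of algSepStatement M hD

/-- the number of cusps of `F_{M,k}`. -/
theorem card_cusps_Fk_of_fiberData :
    Nat.card {v : Place k (Fk k M) // 0 < v.ord ((jk k M)⁻¹)} = cuspCount M :=
  card_cusps_Fk_of algSepStatement M hD

end Fermat.Agent.GM

end
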