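/-
Item 75a (G_M), piece GM-F (helper15): the FUNDAMENTAL IDENTITY `∑_{w | v} e(w) deg(w) = [F':F] deg(v)`
in ANY characteristic, for a finite separable extension `F'/F` of function fields over `K` all of
whose places (of `F'`) have degree one.
Route: the local dictionary `HeckeBar/LocDict.lean` (places above `v` ↔ primes of
`B_v = integralClosure O_v F'`) + `Ideal.sum_ramification_inertia`.
-/
import Mathlib
import Fermat.Agent.HeckeBar.LocNorm
import Fermat.Agent.FFlib.FSPrimes

set_option autoImplicit false
set_option linter.style.haveILetI false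
set_option linter.unusedSectionVars false
set_option linter.deprecated false

noncomputable section

namespace Fermat.Agent.GM

open AlgebraicCurve IsDedekindDomain WithZero IsLocalRing Fermat.Agent.S24lib Fermat.Agent.HeckeBar

variable {K F F' : Type*} [Field K] [Field F] [Field F'] [Algebra K F] [Algebra K F']
  [Algebra F F'] [IsScalarTower K F F'] [FiniteDimensional F F'] [Algebra.IsSeparable F F']

variable (v : Place K F)

/-- the maximal ideal of `O_v` is not zero -/
lemma fid_maximalIdeal_ne_bot : maximalIdeal v.toValuationSubring ≠ ⊥ :=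
  v.heightOneSpectrum.ne_bot

/-- The Mathlib ramification index of a prime of `B_v` is the Prelude ramification index of its
place. -/
theorem fid_ramificationIdx_eq (Q : HeightOneSpectrum (locB v F')) :
    Ideal.ramificationIdx' (maximalIdeal v.toValuationSubring) Q.asIdeal
      = (locPlace v Q).ramificationIndex F := by
  obtain ⟨π, hπ⟩ := ffExistsIrreducible v
  have hπ0 : (π : F) ≠ 0 := by
    simpa [ne_eq, ZeroMemClass.coe_eq_zero] using hπ.ne_zero
  set b : locB v F' := algebraMap v.toValuationSubring (locB v F') π with hb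
  have hbF : (b : F') = algebraMap F F' (π : F) := rfl
  have hb0 : (b : F') ≠ 0 := by
    rw [hbF]; exact (map_ne_zero (algebraMap F F')).2 hπ0
  have hord : (locPlace v Q).ord (b : F') = ((locPlace v Q).ramificationIndex F : ℤ) := by
    rw [hbF, (locPlace v Q).ord_restrict, locPlace_restrict, v.ord_coe_irreducible hπ, mul_one]
  have hmap : Ideal.map (algebraMap v.toValuationSubring (locB v F'))
      (maximalIdeal v.toValuationSubring) = Ideal.span {b} := by
    rw [hπ.maximalIdeal_eq, Ideal.map_span, Set.image_singleton]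
  have hval : Q.valuation F' (b : F') = Q.intValuation b :=
    Q.valuation_of_algebraMap (K := F') b
  have hvne : Q.valuation F' (b : F') ≠ 0 := (Valuation.ne_zero_iff _).2 hb0
  have key : ∀ n : ℕ, Ideal.map (algebraMap v.toValuationSubring (locB v F'))
      (maximalIdeal v.toValuationSubring) ≤ Q.asIdeal ^ n ↔
      (n : ℤ) ≤ ((locPlace v Q).ramificationIndex F : ℤ) := by
    intro n
    rw [hmap, Ideal.span_le, Set.singleton_subset_iff, SetLike.mem_coe,
      ← Q.intValuation_le_pow_iff_mem, ← hval, ← hord, loc_ord_locPlace]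
    rw [← WithZero.log_le_log hvne exp_ne_zero, log_exp]
    omega
  apply Ideal.ramificationIdx'_spec
  · rw [key]
  · rw [key]; push_cast; omega

/-- the old-style inertia degree is one -/
theorem fid_inertiaDeg_eq_one (Q : HeightOneSpectrum (locB v F'))
    (hdeg : (locPlace v Q).deg = 1) :
    Ideal.inertiaDeg' (maximalIdeal v.toValuationSubring) Q.asIdeal = 1 := by
  have hlo : Q.asIdeal.LiesOver (maximalIdeal v.toValuationSubring) := nf_liesOver v Q
  have hQmax : Q.asIdeal.IsMaximal := Q.isMaximal
  rw [Ideal.inertiaDeg'_eq_inertiaDeg]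
  exact nf_inertiaDeg_eq_one v Q hdeg

section Sum

variable [HasPrincipalDivisors K F']

/-- **sum of the ramification indices** over the places above `v`. -/
theorem fid_sum_ramificationIndex (hdeg' : ∀ w : Place K F', w.deg = 1) :
    ∑ w ∈ v.fiber F', (w.ramificationIndex F : ℤ) = (Module.finrank F F' : ℤ) := by
  classical
  have hp0 := fid_maximalIdeal_ne_bot v
  have hsum := Ideal.sum_ramification_inertia (R := v.toValuationSubring) (locB v F') F F'
    (p := maximalIdeal v.toValuationSubring) hp0
  rw [← hsum, Nat.cast_sum]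
  -- the primes over `p` as height one primes
  have hmem : ∀ P : Ideal (locB v F'),
      P ∈ IsDedekindDomain.primesOverFinset (maximalIdeal v.toValuationSubring) (locB v F') →
        P.IsPrime ∧ P ≠ ⊥ := by
    intro P hP
    rw [IsDedekindDomain.mem_primesOverFinset_iff hp0] at hP
    refine ⟨hP.1, ?_⟩
    rintro rfl
    have h1 := hP.2.over
    obtain ⟨π, hπ⟩ := ffExistsIrreducible v
    have h2 : π ∈ maximalIdeal v.toValuationSubring := by
      rw [hπ.maximalIdeal_eq]; exact Ideal.mem_span_singleton_self π
    rw [h1] at h2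
    have h3 : algebraMap v.toValuationSubring (locB v F') π = 0 := h2
    have h4 := congrArg (fun z : locB v F' => (z : F')) h3
    simp only [ZeroMemClass.coe_zero] at h4
    have h5 : (π : F) = 0 := (map_eq_zero (algebraMap F F')).1 h4
    exact hπ.ne_zero (Subtype.ext h5)
  refine Finset.sum_bij'
    (fun w hw => (locPrime v w (Place.mem_fiber.1 hw)).asIdeal)
    (fun P hP => locPlace v ⟨P, (hmem P hP).1, (hmem P hP).2⟩)
    ?_ ?_ ?_ ?_ ?_
  · intro w hw
    rw [IsDedekindDomain.mem_primesOverFinset_iff hp0]
    exact ⟨(locPrime v w _).isPrime, nf_liesOver v _⟩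
  · intro P hP
    exact Place.mem_fiber.2 (locPlace_restrict v _)
  · intro w hw
    exact locPlace_locPrime v w (Place.mem_fiber.1 hw)
  · intro P hP
    have := locPrime_locPlace v ⟨P, (hmem P hP).1, (hmem P hP).2⟩
    exact congrArg HeightOneSpectrum.asIdeal this
  · intro w hw
    have hw' := Place.mem_fiber.1 hw
    have h1 := fid_ramificationIdx_eq v (locPrime v w hw')
    have h2 := fid_inertiaDeg_eq_one v (locPrime v w hw') (hdeg' _)
    rw [locPlace_locPrime] at h1
    show (w.ramificationIndex F : ℤ) = ((Ideal.ramificationIdx' _ _ * Ideal.inertiaDeg' _ _ : ℕ) : ℤ)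
    rw [h2, mul_one, h1]

/-- **Fundamental identity** in any characteristic. -/
theorem loc_fundamentalIdentity (hdeg' : ∀ w : Place K F', w.deg = 1) :
    FundamentalIdentity K F F' := by
  refine ⟨fun v => ?_⟩
  have hsum := fid_sum_ramificationIndex v hdeg'
  have hpos : 0 < Module.finrank F F' := Module.finrank_pos
  -- the fibre is not empty, hence `deg v = 1`
  have hne : (v.fiber F').Nonempty := by
    by_contra hcon
    rw [Finset.not_nonempty_iff_eq_empty] at hcon
    rw [hcon, Finset.sum_empty] at hsum
    omega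
  obtain ⟨w₀, hw₀⟩ := hne
  have hdegv : v.deg = 1 := by
    have h := w₀.deg_restrict_mul_inertiaDeg (F := F)
    rw [Place.mem_fiber.1 hw₀, hdeg' w₀] at h
    exact Nat.eq_one_of_mul_eq_one_right h
  rw [hdegv, Nat.cast_one, mul_one, ← hsum]
  refine Finset.sum_congr rfl fun w _ => ?_
  rw [hdeg' w, Nat.cast_one, mul_one]

/-- all places of `F` have degree one as well -/
theorem loc_deg_eq_one (hdeg' : ∀ w : Place K F', w.deg = 1) (v : Place K F) : v.deg = 1 := by
  have hsum := fid_sum_ramificationIndex v hdeg'
  have hpos : 0 < Module.finrank F F' := Module.finrank_pos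
  have hne : (v.fiber F').Nonempty := by
    by_contra hcon
    rw [Finset.not_nonempty_iff_eq_empty] at hcon
    rw [hcon, Finset.sum_empty] at hsum
    omega
  obtain ⟨w₀, hw₀⟩ := hne
  have h := w₀.deg_restrict_mul_inertiaDeg (F := F)
  rw [Place.mem_fiber.1 hw₀, hdeg' w₀] at h
  exact Nat.eq_one_of_mul_eq_one_right h

end Sum

end Fermat.Agent.GM

namespace Fermat.Agent.GM

open AlgebraicCurve IntermediateField Fermat.Agent.S24lib Fermat.Agent.FFlib

variable {K F F' : Type*} [Field K] [Field F] [Field F'] [Algebra K F] [Algebra K F']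
  [Algebra F F'] [IsScalarTower K F F']

/-- finiteness and separability of `F'/F` from those of `F'/K(x')`, `x'` the image of `x ∈ F` -/
theorem fid_finite_separable {x : F} [h' : FFSep K (algebraMap F F' x)] :
    Module.Finite F F' ∧ Algebra.IsSeparable F F' := by
  let a : F →ₐ[K] F' := IsScalarTower.toAlgHom K F F'
  have hmap : K⟮x⟯.map a = K⟮algebraMap F F' x⟯ := by
    rw [IntermediateField.adjoin_map, Set.image_singleton]
    rfl
  let i : K⟮x⟯ ≃ₐ[K] K⟮algebraMap F F' x⟯ :=
    (K⟮x⟯.equivMap a).trans (IntermediateField.equivOfEq hmap)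
  have he : (algebraMap K⟮x⟯ F').comp (i.symm.toRingEquiv : K⟮algebraMap F F' x⟯ →+* K⟮x⟯)
      = ((RingEquiv.refl F' : F' ≃+* F') : F' →+* F').comp
        (algebraMap K⟮algebraMap F F' x⟯ F') := by
    refine RingHom.ext fun e => ?_
    obtain ⟨e', rfl⟩ := i.surjective e
    show algebraMap K⟮x⟯ F' (i.symm (i e')) = algebraMap K⟮algebraMap F F' x⟯ F' (i e')
    rw [AlgEquiv.symm_apply_apply]
    rfl
  haveI : Module.Finite K⟮algebraMap F F' x⟯ F' := h'.fin
  haveI : Algebra.IsSeparable K⟮algebraMap F F' x⟯ F' := h'.sep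
  haveI hfin : Module.Finite K⟮x⟯ F' :=
    Module.Finite.of_equiv_equiv i.symm.toRingEquiv (RingEquiv.refl F') he
  haveI hsep : Algebra.IsSeparable K⟮x⟯ F' :=
    Algebra.IsSeparable.of_equiv_equiv i.symm.toRingEquiv (RingEquiv.refl F') he
  exact ⟨Module.Finite.of_restrictScalars_finite K⟮x⟯ F F',
    Algebra.isSeparable_tower_top_of_isSeparable K⟮x⟯ F F'⟩

/-- **GM-F**: the fundamental identity for function fields in ANY characteristic. -/
theorem fundamentalIdentity_of_ffSep [IsAlgClosed K] [Algebra.IsIntegral F F'] {x : F}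
    [h' : FFSep K (algebraMap F F' x)] [HasPrincipalDivisors K F'] :
    FundamentalIdentity K F F' := by
  haveI : Module.Finite F F' := (fid_finite_separable (K := K) (x := x)).1
  haveI : Algebra.IsSeparable F F' := (fid_finite_separable (K := K) (x := x)).2
  haveI : Algebra.IsAlgebraic K⟮algebraMap F F' x⟯ F' :=
    haveI := h'.fin
    Algebra.IsAlgebraic.of_finite _ _
  exact loc_fundamentalIdentity (fun w => ffDeg_eq_one w h'.trans)

end Fermat.Agent.GM

end
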