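/-
Item 75a, part (G_M), piece GM-R (owner helper4): the conjugate cusp expansions mod `ℓ`.
INTERFACE FILE (definitions only, no sorry).

`RedFamily k M I g` packages the values `ψ i d ∈ k((t))` (`t = q^{1/M}`) of the `|I|` conjugate
expansions on the generators `j̄_d = j̄(q^d)`, `d ∣ M`, of `F_k(M) = k(j̄_d : d ∣ M) ⊂ k((q))`,
together with the properties from which the `FiberData` of `F_k(M)` over the cusps follows by
pure algebra (file `GM/RedGeneric.lean`, theorem `RedFamily.nonempty_fiberData`).
The instantiation (`k` = residue field of a valuation ring `A ⊂ ℚ̄` over `ℓ ∤ M`,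
`I = SL(2,ℤ) ⧸ Γ₀(M)`, `g = T`, `ψ i d` = coefficientwise reduction of the `q_M`-expansion of the
conjugate `j_d ∘ i⁻¹`) is in `GM/RedInst*.lean`.
-/
import Mathlib
import Fermat.Agent.GM.Defs
import Fermat.Agent.S24lib.FiberData

set_option autoImplicit false

noncomputable section

namespace Fermat.Agent.GM

open AlgebraicCurve ModularCurve IntermediateField

/-- the index type of the generators: the divisors of `M` -/
abbrev Dv (M : ℕ) : Type := {d : ℕ // d ∣ M}

theorem Dv.ne_zero {M : ℕ} [NeZero M] (d : Dv M) : d.1 ≠ 0 := fun h =>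
  NeZero.ne M (by have := d.2; rwa [h, zero_dvd_iff] at this)

/-- the generators `j̄(q^d)`, `d ∣ M`, of `F_k(M)` -/
def jbarGen (k : Type) [Field k] (M : ℕ) [NeZero M] (d : Dv M) : LaurentSeries k :=
  haveI : NeZero d.1 := ⟨d.ne_zero⟩
  qExpand k d.1 (jqModC k)

/-- the series `j̄(t^M)`, `t = q^{1/M}` -/
def JbarM (k : Type) [Field k] (M : ℕ) [NeZero M] : LaurentSeries k := qExpand k M (jqModC k)

/-- A family of conjugate expansions in characteristic `ℓ`, given on the generators. -/
structure RedFamily (k : Type) [Field k] (M : ℕ) [NeZero M] (I : Type) [Fintype I]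
    {G : Type} [Group G] [MulAction G I] (g : G) where
  /-- the values of the conjugate expansions on the generators `j̄_d` -/
  ψ : I → Dv M → LaurentSeries k
  /-- the identity conjugate -/
  i₀ : I
  /-- the identity conjugate is the given `q`-expansion, written in `t = q^{1/M}` -/
  base : ∀ d, ψ i₀ d = qExpand k M (jbarGen k M d)
  /-- all conjugates fix `j̄` -/
  val_one : ∀ i, ψ i ⟨1, one_dvd M⟩ = JbarM k M
  /-- KEY: every polynomial relation between the `j̄_d` holds for every conjugate -/
  key : ∀ (i : I) (p : MvPolynomial (Dv M) k),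
    MvPolynomial.aeval (jbarGen k M) p = 0 → MvPolynomial.aeval (ψ i) p = 0
  /-- distinct conjugates differ on the generators -/
  dist : Function.Injective ψ
  /-- the characteristic polynomial of a polynomial in the generators has coefficients in
  `k[j̄]` -/
  sym : ∀ p : MvPolynomial (Dv M) k, ∃ Q : Polynomial (Polynomial k), Q.Monic ∧
    Q.map (Polynomial.eval₂RingHom HahnSeries.C (JbarM k M)) =
      ∏ i : I, (Polynomial.X - Polynomial.C (MvPolynomial.aeval (ψ i) p))
  /-- the root of unity of the rotation `t ↦ ζ t` -/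
  ζ : k
  ζ_prim : IsPrimitiveRoot ζ M
  /-- `g` acts by the rotation `t ↦ ζ t` -/
  twist : ∀ (i : I) (d : Dv M) (n : ℤ), (ψ (g • i) d).coeff n = ζ ^ n * (ψ i d).coeff n

end Fermat.Agent.GM

end
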