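/-
Item 75a, part (G_M), piece GM-R/G (helper15), file 1: the orders of the `q`-expansions `j̄(q^d)`.
No sorry.
-/
import Mathlib
import Fermat.Agent.GM.RedDefs

set_option autoImplicit false
set_option synthInstance.maxHeartbeats 400000

noncomputable section

namespace Fermat.Agent.GM

open AlgebraicCurve ModularCurve IntermediateField Fermat.Agent.S24lib
open scoped Polynomial

/-! ## orders of `q`-expansions -/

section Order

theorem rg_order_qExpand {R : Type*} [CommRing R] (N : ℕ) [NeZero N] (f : LaurentSeries R) :
    (qExpand R N f).order = (N : ℤ) * f.order := by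
  by_cases hf : f = 0
  · rw [hf, map_zero, HahnSeries.order_zero, mul_zero]
  have hc : (qExpand R N f).coeff ((N : ℤ) * f.order) ≠ 0 := by
    rw [qExpand_coeff_mul]
    exact HahnSeries.coeff_order_eq_zero.not.mpr hf
  apply le_antisymm
  · exact HahnSeries.order_le_of_coeff_ne_zero hc
  · by_contra hlt
    push Not at hlt
    have hne : qExpand R N f ≠ 0 := HahnSeries.ne_zero_of_coeff_ne_zero hc
    have h1 := HahnSeries.coeff_order_eq_zero.not.mpr hne
    by_cases hd : (N : ℤ) ∣ (qExpand R N f).order
    · obtain ⟨m, hm⟩ := hd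
      rw [hm, qExpand_coeff_mul] at h1
      have hNpos : (0 : ℤ) < N := by exact_mod_cast Nat.pos_of_ne_zero (NeZero.ne N)
      have hlt' : m < f.order := by
        rw [hm] at hlt
        exact lt_of_mul_lt_mul_left hlt hNpos.le
      exact h1 (HahnSeries.coeff_eq_zero_of_lt_order hlt')
    · exact h1 (qExpand_coeff_of_not_dvd N f hd)

variable (k : Type) [Field k] (M : ℕ) [NeZero M]

theorem rg_order_jqModC : (jqModC k).order = -1 := by
  have hc : (jqModC k).coeff (-1) ≠ 0 := by
    rw [coeff_jqModC_neg_one]; exact one_ne_zero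
  apply le_antisymm
  · exact HahnSeries.order_le_of_coeff_ne_zero hc
  · by_contra hlt
    push Not at hlt
    have hne : jqModC k ≠ 0 := HahnSeries.ne_zero_of_coeff_ne_zero hc
    exact HahnSeries.coeff_order_eq_zero.not.mpr hne (coeff_jqModC_of_lt k hlt)

theorem rg_order_JbarM : (JbarM k M).order = -(M : ℤ) := by
  rw [JbarM, rg_order_qExpand, rg_order_jqModC]; ring

theorem rg_JbarM_ne_zero : JbarM k M ≠ 0 := by
  intro h
  have := rg_order_JbarM k M
  rw [h, HahnSeries.order_zero] at this
  have hM : (M : ℤ) ≠ 0 := by exact_mod_cast NeZero.ne M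
  omega

end Order

end Fermat.Agent.GM

end
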