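/-
Item 75a, part (G_M), piece GM-R/G (helper15), file 2: INJ₀ — a polynomial in the generators
`j̄_d` whose image under ONE conjugate expansion vanishes is zero in `F_k(M)`.  No sorry.
-/
import Mathlib
import Fermat.Agent.GM.RedGenBase

set_option autoImplicit false
set_option synthInstance.maxHeartbeats 400000

noncomputable section

namespace Fermat.Agent.GM

open AlgebraicCurve ModularCurve IntermediateField Fermat.Agent.S24lib
open scoped Polynomial

section Inj0

variable {k : Type} [Field k] {M : ℕ} [NeZero M] {I : Type} [Fintype I] {G : Type} [Group G]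
  [MulAction G I] {g : G}

/-- `k[X] → k[X_d : d ∣ M]`, `X ↦ X_1` -/
def rgPolyToP (k : Type) [Field k] (M : ℕ) : k[X] →ₐ[k] MvPolynomial (Dv M) k :=
  Polynomial.aeval (MvPolynomial.X ⟨1, one_dvd M⟩)

/-- evaluation of a polynomial at `j̄(t^M)` -/
abbrev rgEv (k : Type) [Field k] (M : ℕ) [NeZero M] : k[X] →+* LaurentSeries k :=
  Polynomial.eval₂RingHom HahnSeries.C (JbarM k M)

theorem RedFamily.aeval_comp_polyToP (R : RedFamily k M I g) (i : I) :
    ((MvPolynomial.aeval (R.ψ i) : MvPolynomial (Dv M) k →ₐ[k] LaurentSeries k) :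
      MvPolynomial (Dv M) k →+* LaurentSeries k).comp
        ((rgPolyToP k M : k[X] →ₐ[k] MvPolynomial (Dv M) k) : k[X] →+* MvPolynomial (Dv M) k)
      = rgEv k M := by
  apply Polynomial.ringHom_ext
  · intro c
    simp only [RingHom.coe_comp, RingHom.coe_coe, Function.comp_apply, rgPolyToP,
      Polynomial.aeval_C, MvPolynomial.algebraMap_eq, MvPolynomial.aeval_C,
      Polynomial.coe_eval₂RingHom, Polynomial.eval₂_C]
    rw [algebraMap_laurentSeries_eq_single, HahnSeries.C_apply]
  · simp only [RingHom.coe_comp, RingHom.coe_coe, Function.comp_apply, rgPolyToP,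
      Polynomial.aeval_X, MvPolynomial.aeval_X, Polynomial.coe_eval₂RingHom, Polynomial.eval₂_X]
    exact R.val_one i

theorem RedFamily.aeval_polyToP (R : RedFamily k M I g) (i : I) (n : k[X]) :
    MvPolynomial.aeval (R.ψ i) (rgPolyToP k M n) = rgEv k M n :=
  congrArg (fun f : k[X] →+* LaurentSeries k => f n) (R.aeval_comp_polyToP i)

/-- `Ψ_i (Q(X_1, p)) = Q^{ev}(Ψ_i p)` -/
theorem RedFamily.aeval_eval₂ (R : RedFamily k M I g) (i : I) (Q : Polynomial k[X])
    (p : MvPolynomial (Dv M) k) :
    MvPolynomial.aeval (R.ψ i)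
        (Q.eval₂ ((rgPolyToP k M : k[X] →ₐ[k] MvPolynomial (Dv M) k) :
          k[X] →+* MvPolynomial (Dv M) k) p)
      = (Q.map (rgEv k M)).eval (MvPolynomial.aeval (R.ψ i) p) := by
  have h := Polynomial.hom_eval₂ Q
    ((rgPolyToP k M : k[X] →ₐ[k] MvPolynomial (Dv M) k) : k[X] →+* MvPolynomial (Dv M) k)
    ((MvPolynomial.aeval (R.ψ i) : MvPolynomial (Dv M) k →ₐ[k] LaurentSeries k) :
      MvPolynomial (Dv M) k →+* LaurentSeries k) p
  rw [R.aeval_comp_polyToP i] at h
  rw [← Polynomial.eval₂_eq_eval_map]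
  exact h

/-- the identity conjugate is the `q`-expansion in the variable `t = q^{1/M}` -/
theorem RedFamily.aeval_base (R : RedFamily k M I g) (p : MvPolynomial (Dv M) k) :
    MvPolynomial.aeval (R.ψ R.i₀) p = qExpand k M (MvPolynomial.aeval (jbarGen k M) p) := by
  have h : (MvPolynomial.aeval (R.ψ R.i₀) : MvPolynomial (Dv M) k →ₐ[k] LaurentSeries k)
      = (qExpandAlgHomC k M).comp (MvPolynomial.aeval (jbarGen k M)) := by
    apply MvPolynomial.algHom_ext
    intro d
    simp only [MvPolynomial.aeval_X, AlgHom.comp_apply, qExpandAlgHomC_apply]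
    exact R.base d
  rw [h]; rfl

/-- **INJ₀**: a polynomial in the generators which vanishes in one conjugate vanishes. -/
theorem RedFamily.inj₀ (R : RedFamily k M I g) (i : I) (p : MvPolynomial (Dv M) k)
    (h : MvPolynomial.aeval (R.ψ i) p = 0) : MvPolynomial.aeval (jbarGen k M) p = 0 := by
  classical
  by_contra hne
  have hy : MvPolynomial.aeval (R.ψ R.i₀) p ≠ 0 := by
    rw [R.aeval_base]
    exact fun h0 => hne (qExpand_injective (R := k) M (by rw [h0, map_zero]))
  obtain ⟨Q, -, hQ⟩ := R.sym p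
  set a : I → LaurentSeries k := fun j => MvPolynomial.aeval (R.ψ j) p with ha
  set m := (Finset.univ.filter (fun j => a j = 0)).card with hm
  set R₁ : Polynomial (LaurentSeries k) :=
    ∏ j ∈ Finset.univ.filter (fun j => ¬ a j = 0), (Polynomial.X - Polynomial.C (a j)) with hR₁
  have hfac : ∏ j : I, (Polynomial.X - Polynomial.C (a j)) = Polynomial.X ^ m * R₁ := by
    rw [← Finset.prod_filter_mul_prod_filter_not Finset.univ (fun j => a j = 0)]
    congr 1
    rw [hm, ← Finset.prod_const]
    refine Finset.prod_congr rfl fun j hj => ?_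
    rw [(Finset.mem_filter.mp hj).2, map_zero, sub_zero]
  set Q₁ : Polynomial k[X] := Q /ₘ (Polynomial.X ^ m) with hQ₁
  have hQ₁map : Q₁.map (rgEv k M) = R₁ := by
    rw [hQ₁, Polynomial.map_divByMonic _ (Polynomial.monic_X_pow m), hQ, hfac, Polynomial.map_pow,
      Polynomial.map_X, Polynomial.mul_divByMonic_cancel_left _ (Polynomial.monic_X_pow m)]
  set E : MvPolynomial (Dv M) k :=
    Q₁.eval₂ ((rgPolyToP k M : k[X] →ₐ[k] MvPolynomial (Dv M) k) :
          k[X] →+* MvPolynomial (Dv M) k) p with hE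
  have hEval : ∀ j, MvPolynomial.aeval (R.ψ j) E = R₁.eval (a j) := by
    intro j
    rw [hE, R.aeval_eval₂, hQ₁map]
  -- `Ψ_{i₀} E = 0`
  have h0 : MvPolynomial.aeval (R.ψ R.i₀) E = 0 := by
    rw [hEval]
    have hroot : (∏ j : I, (Polynomial.X - Polynomial.C (a j))).eval (a R.i₀) = 0 := by
      rw [Polynomial.eval_prod]
      exact Finset.prod_eq_zero (Finset.mem_univ R.i₀) (by simp)
    rw [hfac, Polynomial.eval_mul, Polynomial.eval_pow, Polynomial.eval_X] at hroot
    rcases mul_eq_zero.mp hroot with h1 | h1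
    · exact absurd (pow_eq_zero_iff (M₀ := LaurentSeries k) (n := m) (fun hm0 => by
        rw [hm0, pow_zero] at h1
        exact one_ne_zero h1) |>.mp h1) hy
    · exact h1
  have hΦE : MvPolynomial.aeval (jbarGen k M) E = 0 := by
    rw [R.aeval_base] at h0
    exact qExpand_injective (R := k) M (by rw [h0, map_zero])
  have hiE := R.key i E hΦE
  rw [hEval, show a i = 0 from h, hR₁, Polynomial.eval_prod] at hiE
  rw [Finset.prod_eq_zero_iff] at hiE
  obtain ⟨j, hj, hj0⟩ := hiE
  rw [Polynomial.eval_sub, Polynomial.eval_X, Polynomial.eval_C, zero_sub, neg_eq_zero] at hj0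
  exact (Finset.mem_filter.mp hj).2 hj0

end Inj0

end Fermat.Agent.GM

end
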