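/-
Item 75a, part (G_M), piece GM-R/G step 5 (helper4): the rotation `t ↦ ζ t`.
For ANY family `σ : I → F_k(M) →+* k((t))` compatible with a `RedFamily` on polynomials in the
generators:  `σ (g • i) = twist ζ ∘ σ i`,  hence the axioms `order_smul` and `dvd` of `FiberData`.
Also: basic facts on `F_k(M)` as the fraction field of `k[j̄_d]` (`polyF`, `exists_polyF_div`,
`Fk_ringHom_ext`).
No sorry.
-/
import Mathlib
import Fermat.Agent.GM.RedDefs
import Fermat.Agent.Kron.Core

set_option autoImplicit false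
set_option synthInstance.maxHeartbeats 400000

noncomputable section

namespace Fermat.Agent.GM

open AlgebraicCurve ModularCurve IntermediateField

variable {k : Type} [Field k] {M : ℕ} [NeZero M]

theorem divisorExpansionsC_eq_range : divisorExpansionsC k M = Set.range (jbarGen k M) := by
  ext x
  constructor
  · rintro ⟨d, hne, hd, rfl⟩
    exact ⟨⟨d, hd⟩, rfl⟩
  · rintro ⟨d, rfl⟩
    exact ⟨d.1, ⟨d.ne_zero⟩, d.2, rfl⟩

theorem Fk_eq_adjoin_range :
    modularFunctionFieldFullC k M = IntermediateField.adjoin k (Set.range (jbarGen k M)) := by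
  rw [modularFunctionFieldFullC, divisorExpansionsC_eq_range]

theorem aeval_jbarGen_mem (p : MvPolynomial (Dv M) k) :
    MvPolynomial.aeval (jbarGen k M) p ∈ modularFunctionFieldFullC k M := by
  rw [Fk_eq_adjoin_range]
  apply IntermediateField.algebra_adjoin_le_adjoin
  rw [Algebra.adjoin_range_eq_range_aeval]
  exact ⟨p, rfl⟩

/-- polynomials in the generators, as elements of `F_k(M)` -/
def polyF : MvPolynomial (Dv M) k →+* Fk k M where
  toFun p := ⟨MvPolynomial.aeval (jbarGen k M) p, aeval_jbarGen_mem p⟩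
  map_one' := Subtype.ext (map_one _)
  map_mul' _ _ := Subtype.ext (map_mul _ _ _)
  map_zero' := Subtype.ext (map_zero _)
  map_add' _ _ := Subtype.ext (map_add _ _ _)

@[simp] theorem coe_polyF (p : MvPolynomial (Dv M) k) :
    ((polyF p : Fk k M) : LaurentSeries k) = MvPolynomial.aeval (jbarGen k M) p := rfl

theorem polyF_C (c : k) : polyF (M := M) (MvPolynomial.C c) = algebraMap k (Fk k M) c := by
  apply Subtype.ext
  rw [coe_polyF, MvPolynomial.aeval_C]
  rfl

theorem polyF_X_one : polyF (M := M) (MvPolynomial.X ⟨1, one_dvd M⟩) = jk k M := by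
  apply Subtype.ext
  rw [coe_polyF, MvPolynomial.aeval_X, coe_jk]
  exact qExpand_one_apply _

/-- every element of `F_k(M)` is a quotient of polynomials in the generators -/
theorem exists_polyF_div (f : Fk k M) :
    ∃ a b : MvPolynomial (Dv M) k, polyF b ≠ 0 ∧ f = polyF a / polyF b := by
  have hf : (f : LaurentSeries k) ∈ IntermediateField.adjoin k (Set.range (jbarGen k M)) := by
    rw [← Fk_eq_adjoin_range]
    exact f.2
  obtain ⟨r, s, hrs⟩ := (IntermediateField.mem_adjoin_range_iff k (jbarGen k M) _).mp hf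
  by_cases hs : MvPolynomial.aeval (jbarGen k M) s = 0
  · refine ⟨0, 1, ?_, ?_⟩
    · rw [map_one]
      exact one_ne_zero
    · apply Subtype.ext
      rw [hrs, hs, div_zero]
      simp
  · refine ⟨r, s, fun h => hs (congrArg Subtype.val h), ?_⟩
    apply Subtype.ext
    rw [hrs]
    rfl

/-- two ring homomorphisms on `F_k(M)` which agree on polynomials in the generators are equal -/
theorem Fk_ringHom_ext {L : Type*} [Field L] (φ ψ : Fk k M →+* L)
    (h : ∀ p : MvPolynomial (Dv M) k, φ (polyF p) = ψ (polyF p)) : φ = ψ := by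
  ext f
  obtain ⟨a, b, hb, rfl⟩ := exists_polyF_div f
  rw [map_div₀, map_div₀, h a, h b]

/-! ### the rotation -/

theorem twist_order {ζ : kˣ} (x : LaurentSeries k) :
    (Fermat.Agent.Kron.twist ζ x).order = x.order := by
  have hsupp : (Fermat.Agent.Kron.twist ζ x).support = x.support :=
    Fermat.Agent.Kron.twistFun_support ζ x
  by_cases hx : x = 0
  · rw [hx, map_zero]
  · have hx' : Fermat.Agent.Kron.twist ζ x ≠ 0 := by
      intro h
      apply hx
      rw [← HahnSeries.support_eq_empty_iff] at h ⊢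
      rw [← hsupp, h]
    rw [HahnSeries.order_of_ne hx, HahnSeries.order_of_ne hx']
    congr 1

theorem algebraMap_eq_C (c : k) : algebraMap k (LaurentSeries k) c = HahnSeries.C c := by
  have h1 : algebraMap k (PowerSeries k) c = PowerSeries.C c := by simp
  rw [HahnSeries.algebraMap_apply', h1, HahnSeries.ofPowerSeries_C]

theorem twist_C {ζ : kˣ} (c : k) :
    Fermat.Agent.Kron.twist ζ (HahnSeries.C c) = HahnSeries.C c := by
  ext n
  rw [Fermat.Agent.Kron.twist_coeff, HahnSeries.C_apply, HahnSeries.coeff_single]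
  split_ifs with h
  · subst h
    simp
  · simp

variable {I : Type} [Fintype I] {G : Type} [Group G] [MulAction G I] {g : G}

/-- the root of unity of a `RedFamily`, as a unit -/
def RedFamily.ζu (R : RedFamily k M I g) : kˣ :=
  Units.mk0 R.ζ (R.ζ_prim.ne_zero (NeZero.ne M))

@[simp] theorem RedFamily.coe_ζu (R : RedFamily k M I g) : ((R.ζu : kˣ) : k) = R.ζ := rfl

theorem RedFamily.coe_ζu_zpow (R : RedFamily k M I g) (n : ℤ) :
    (((R.ζu ^ n : kˣ)) : k) = R.ζ ^ n := by
  rw [Units.val_zpow_eq_zpow_val, RedFamily.coe_ζu]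

variable (R : RedFamily k M I g) (σ : I → Fk k M →+* LaurentSeries k)

/-- the twist of an evaluation is the evaluation at the twisted generators -/
theorem twist_aeval (i : I) (p : MvPolynomial (Dv M) k) :
    Fermat.Agent.Kron.twist R.ζu (MvPolynomial.aeval (R.ψ i) p)
      = MvPolynomial.aeval (R.ψ (g • i)) p := by
  induction p using MvPolynomial.induction_on with
  | C c =>
    rw [MvPolynomial.aeval_C, MvPolynomial.aeval_C, algebraMap_eq_C]
    exact twist_C (ζ := R.ζu) c
  | add p q hp hq => rw [map_add, map_add, map_add, hp, hq]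
  | mul_X p d hp =>
    rw [map_mul, map_mul, map_mul, hp, MvPolynomial.aeval_X, MvPolynomial.aeval_X]
    congr 1
    ext n
    rw [Fermat.Agent.Kron.twist_coeff, R.twist i d n, RedFamily.coe_ζu_zpow]

/-- **TWIST**: `σ (g • i) = twist ζ ∘ σ i` -/
theorem sigma_smul_eq_twist
    (hσ : ∀ (i : I) (p : MvPolynomial (Dv M) k), σ i (polyF p) = MvPolynomial.aeval (R.ψ i) p)
    (i : I) : σ (g • i) = (Fermat.Agent.Kron.twist R.ζu).comp (σ i) := by
  apply Fk_ringHom_ext
  intro p
  rw [RingHom.comp_apply, hσ, hσ, twist_aeval]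

/-- **order_smul** -/
theorem order_smul_of_redFamily
    (hσ : ∀ (i : I) (p : MvPolynomial (Dv M) k), σ i (polyF p) = MvPolynomial.aeval (R.ψ i) p)
    (i : I) (f : Fk k M) : (σ (g • i) f).order = (σ i f).order := by
  rw [sigma_smul_eq_twist R σ hσ i, RingHom.comp_apply, twist_order]

theorem sigma_pow_smul_eq_twist
    (hσ : ∀ (i : I) (p : MvPolynomial (Dv M) k), σ i (polyF p) = MvPolynomial.aeval (R.ψ i) p)
    (c : ℕ) (i : I) : σ (g ^ c • i) = (Fermat.Agent.Kron.twist (R.ζu ^ c)).comp (σ i) := by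
  induction c with
  | zero =>
    rw [pow_zero, one_smul, pow_zero]
    ext f n
    rw [RingHom.comp_apply, Fermat.Agent.Kron.twist_one]
  | succ c ih =>
    rw [pow_succ', mul_smul, sigma_smul_eq_twist R σ hσ, ih]
    ext f n
    rw [RingHom.comp_apply, RingHom.comp_apply, RingHom.comp_apply,
      Fermat.Agent.Kron.twist_pow_succ]

/-- **dvd** -/
theorem dvd_of_redFamily
    (hσ : ∀ (i : I) (p : MvPolynomial (Dv M) k), σ i (polyF p) = MvPolynomial.aeval (R.ψ i) p)
    (i : I) (f : Fk k M) (hf : f ≠ 0) :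
    ((M : ℕ) : ℤ) ∣ (Nat.card (MulAction.orbit (Subgroup.zpowers g) i) : ℤ) * (σ i f).order := by
  set c := Nat.card (MulAction.orbit (Subgroup.zpowers g) i) with hc
  have hper : g ^ c • i = i := by
    rw [MulAction.pow_smul_eq_iff_minimalPeriod_dvd, hc]
    have h0 : Nat.card (MulAction.orbit (Subgroup.zpowers g) i)
        = Function.minimalPeriod (g • ·) i :=
      (Nat.card_congr (MulAction.orbitZPowersEquiv g i)).trans (Nat.card_zmod _)
    exact dvd_of_eq h0.symm
  have h1 := sigma_pow_smul_eq_twist R σ hσ c i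
  rw [hper] at h1
  have hx : σ i f ≠ 0 := (map_ne_zero _).mpr hf
  have h2 : (σ i f).coeff (σ i f).order
      = (((R.ζu ^ c) ^ (σ i f).order : kˣ) : k) * (σ i f).coeff (σ i f).order := by
    have h8 := congrArg (fun φ : Fk k M →+* LaurentSeries k => (φ f).coeff (σ i f).order) h1
    simp only [RingHom.comp_apply, Fermat.Agent.Kron.twist_coeff] at h8
    exact h8
  have h3 : (σ i f).coeff (σ i f).order ≠ 0 := HahnSeries.coeff_order_eq_zero.not.mpr hx
  have h4 : (((R.ζu ^ c) ^ (σ i f).order : kˣ) : k) = 1 := by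
    have h5 : ((((R.ζu ^ c) ^ (σ i f).order : kˣ) : k) - 1) * (σ i f).coeff (σ i f).order = 0 := by
      rw [sub_mul, one_mul, ← h2, sub_self]
    rcases mul_eq_zero.mp h5 with h6 | h6
    · exact sub_eq_zero.mp h6
    · exact absurd h6 h3
  have h7 : R.ζ ^ ((c : ℤ) * (σ i f).order) = 1 := by
    rw [← R.coe_ζu_zpow, zpow_mul, zpow_natCast]
    exact h4
  exact (R.ζ_prim.zpow_eq_one_iff_dvd _).mp h7

end Fermat.Agent.GM

end
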