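/-
Item 75a, part (G_M), piece GM-R/G (helper15), file 3: the conjugate expansions as ring
homomorphisms `σ_i : F_k(M) → k((t))` (lift of `Ψ_i` through `k[j̄_d]` to the fraction field),
and the axioms `map_const`, `map_u`, `order_u`, `inj` of `FiberData` for them.
No sorry.
-/
import Mathlib
import Fermat.Agent.GM.RedGenInj
import Fermat.Agent.GM.RedGenTwist

set_option autoImplicit false
set_option synthInstance.maxHeartbeats 400000

noncomputable section

namespace Fermat.Agent.GM

open AlgebraicCurve ModularCurve IntermediateField Fermat.Agent.S24lib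
open scoped Polynomial

section Lift

variable {k : Type} [Field k] {M : ℕ} [NeZero M] {I : Type} [Fintype I] {G : Type} [Group G]
  [MulAction G I] {g : G}

/-- the conjugate expansions exist as ring homomorphisms of `F_k(M)` -/
theorem RedFamily.exists_sigma (R : RedFamily k M I g) (i : I) :
    ∃ σ : Fk k M →+* LaurentSeries k,
      ∀ p : MvPolynomial (Dv M) k, σ (polyF p) = MvPolynomial.aeval (R.ψ i) p := by
  classical
  set S : Set (LaurentSeries k) := divisorExpansionsC k M with hS
  set Φ : MvPolynomial (Dv M) k →ₐ[k] LaurentSeries k := MvPolynomial.aeval (jbarGen k M) with hΦ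
  have hrange : ∀ p, Φ p ∈ Algebra.adjoin k S := by
    intro p
    rw [hS, divisorExpansionsC_eq_range, Algebra.adjoin_range_eq_range_aeval]
    exact ⟨p, rfl⟩
  set Φ' : MvPolynomial (Dv M) k →ₐ[k] Algebra.adjoin k S := Φ.codRestrict _ hrange with hΦ'
  have hsurj : Function.Surjective (Φ' : MvPolynomial (Dv M) k →+* Algebra.adjoin k S) := by
    rintro ⟨x, hx⟩
    rw [hS, divisorExpansionsC_eq_range, Algebra.adjoin_range_eq_range_aeval] at hx
    obtain ⟨p, rfl⟩ := hx
    exact ⟨p, Subtype.ext rfl⟩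
  set Ψ : MvPolynomial (Dv M) k →+* LaurentSeries k :=
    ((MvPolynomial.aeval (R.ψ i) : MvPolynomial (Dv M) k →ₐ[k] LaurentSeries k) :
      MvPolynomial (Dv M) k →+* LaurentSeries k) with hΨ
  have hker : RingHom.ker (Φ' : MvPolynomial (Dv M) k →+* Algebra.adjoin k S) ≤ RingHom.ker Ψ := by
    intro p hp
    rw [RingHom.mem_ker] at hp ⊢
    have h0 : Φ p = 0 := congrArg Subtype.val hp
    exact R.key i p h0
  set g₀ : Algebra.adjoin k S →+* LaurentSeries k :=
    RingHom.liftOfSurjective (Φ' : MvPolynomial (Dv M) k →+* Algebra.adjoin k S) hsurj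
      ⟨Ψ, hker⟩ with hg₀
  have hg₀app : ∀ p, g₀ (Φ' p) = Ψ p := fun p =>
    RingHom.liftOfSurjective_comp_apply
      (Φ' : MvPolynomial (Dv M) k →+* Algebra.adjoin k S) hsurj ⟨Ψ, hker⟩ p
  have hinj : Function.Injective g₀ := by
    rw [injective_iff_map_eq_zero]
    intro x hx
    obtain ⟨p, rfl⟩ := hsurj x
    have h1 : Ψ p = 0 := by rw [← hg₀app]; exact hx
    have h2 := R.inj₀ i p h1
    exact Subtype.ext h2
  open scoped IntermediateField.algebraAdjoinAdjoin in
  set σ₀ : ↥(IntermediateField.adjoin k S) →+* LaurentSeries k :=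
    IsFractionRing.lift (A := Algebra.adjoin k S) (K := IntermediateField.adjoin k S) hinj
    with hσ₀
  have hσ₀app : ∀ p, σ₀ (algebraMap (Algebra.adjoin k S) (IntermediateField.adjoin k S) (Φ' p))
      = Ψ p := fun p => (IsFractionRing.lift_algebraMap hinj (Φ' p)).trans (hg₀app p)
  refine ⟨σ₀, fun p => ?_⟩
  have hp : (polyF p : Fk k M)
      = algebraMap (Algebra.adjoin k S) (IntermediateField.adjoin k S) (Φ' p) := by
    apply Subtype.ext
    rfl
  rw [hp]
  exact hσ₀app p

/-- the conjugate expansions -/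
def RedFamily.sigma (R : RedFamily k M I g) (i : I) : Fk k M →+* LaurentSeries k :=
  (R.exists_sigma i).choose

theorem RedFamily.sigma_polyF (R : RedFamily k M I g) (i : I) (p : MvPolynomial (Dv M) k) :
    R.sigma i (polyF p) = MvPolynomial.aeval (R.ψ i) p :=
  (R.exists_sigma i).choose_spec p

theorem RedFamily.sigma_const (R : RedFamily k M I g) (i : I) (c : k) :
    R.sigma i (algebraMap k (Fk k M) c) = HahnSeries.C (algebraMap k k c) := by
  rw [← polyF_C, R.sigma_polyF, MvPolynomial.aeval_C, algebraMap_eq_C]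
  rfl

theorem RedFamily.sigma_jk (R : RedFamily k M I g) (i : I) :
    R.sigma i (jk k M) = JbarM k M := by
  rw [← polyF_X_one, R.sigma_polyF, MvPolynomial.aeval_X, R.val_one]

theorem RedFamily.sigma_u (R : RedFamily k M I g) (i : I) :
    R.sigma i ((jk k M)⁻¹) = (JbarM k M)⁻¹ := by
  rw [map_inv₀, R.sigma_jk]

theorem RedFamily.order_sigma_u (R : RedFamily k M I g) (i : I) :
    (R.sigma i ((jk k M)⁻¹)).order = (M : ℤ) := by
  rw [R.sigma_u]
  have h1 : (JbarM k M * (JbarM k M)⁻¹).order = (JbarM k M).order + ((JbarM k M)⁻¹).order :=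
    HahnSeries.order_mul (rg_JbarM_ne_zero k M) (inv_ne_zero (rg_JbarM_ne_zero k M))
  rw [mul_inv_cancel₀ (rg_JbarM_ne_zero k M), HahnSeries.order_one, rg_order_JbarM] at h1
  linarith

theorem RedFamily.sigma_injective (R : RedFamily k M I g) : Function.Injective R.sigma := by
  intro i i' h
  apply R.dist
  funext d
  have h1 := R.sigma_polyF i (MvPolynomial.X d)
  have h2 := R.sigma_polyF i' (MvPolynomial.X d)
  rw [MvPolynomial.aeval_X] at h1 h2
  rw [← h1, ← h2, h]

end Lift

end Fermat.Agent.GM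

end
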