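/-
Item 75a, part (G_M), piece GM-R/G step 4 (helper4): the axiom `sym` of `FiberData`.
For ANY family `σ : I → F_k(M) →+* k((t))` compatible with a `RedFamily` on polynomials in the
generators, the characteristic polynomial `∏ᵢ (X - σᵢ f)` of every `f ∈ F_k(M)` has coefficients
in `k(j̄)`.
No sorry.
-/
import Mathlib
import Fermat.Agent.GM.RedGenTwist

set_option autoImplicit false
set_option synthInstance.maxHeartbeats 400000

noncomputable section

namespace Fermat.Agent.GM

open AlgebraicCurve ModularCurve IntermediateField Polynomial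

variable {k : Type} [Field k] {M : ℕ} [NeZero M]

/-- `k[X] → F_k(M)`, `X ↦ j̄` -/
def rgEvF : Polynomial k →+* Fk k M := Polynomial.eval₂RingHom (algebraMap k (Fk k M)) (jk k M)

/-- `k[X] → k[X_d]`, `X ↦ X_1` -/
def rgLiftX : Polynomial k →+* MvPolynomial (Dv M) k :=
  Polynomial.eval₂RingHom MvPolynomial.C (MvPolynomial.X ⟨1, one_dvd M⟩)

theorem polyF_liftX (c : Polynomial k) :
    polyF (M := M) (rgLiftX (M := M) c) = rgEvF (M := M) c := by
  unfold rgLiftX rgEvF
  rw [Polynomial.coe_eval₂RingHom, Polynomial.coe_eval₂RingHom, Polynomial.hom_eval₂,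
    polyF_X_one]
  congr 1
  exact RingHom.ext fun a => polyF_C (M := M) a

theorem polyF_comp_liftX :
    (polyF (k := k) (M := M)).comp (rgLiftX (k := k) (M := M)) = rgEvF (k := k) (M := M) :=
  RingHom.ext fun c => polyF_liftX (M := M) c

theorem rgEvF_mem (c : Polynomial k) : rgEvF (M := M) c ∈ k⟮jk k M⟯ := by
  unfold rgEvF
  rw [Polynomial.coe_eval₂RingHom, Polynomial.eval₂_eq_sum_range]
  refine sum_mem fun n _ => ?_
  exact mul_mem (IntermediateField.algebraMap_mem _ _)
    (pow_mem (IntermediateField.mem_adjoin_simple_self k _) n)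

theorem adjoin_jk_inv : k⟮(jk k M)⁻¹⟯ = k⟮jk k M⟯ := by
  apply le_antisymm
  · rw [adjoin_simple_le_iff]
    exact inv_mem (mem_adjoin_simple_self k _)
  · rw [adjoin_simple_le_iff]
    have := inv_mem (mem_adjoin_simple_self k (jk k M)⁻¹)
    rwa [inv_inv] at this

theorem prod_X_sub_C_scaleRoots {L : Type*} [Field L] {ι : Type*} (s : Finset ι) (x : ι → L)
    (r : L) :
    (∏ i ∈ s, (X - C (x i))).scaleRoots r = ∏ i ∈ s, (X - C (x i * r)) := by
  classical
  induction s using Finset.induction_on with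
  | empty => simp
  | insert a s ha ih =>
    rw [Finset.prod_insert ha, Finset.prod_insert ha, mul_scaleRoots_of_noZeroDivisors, ih,
      X_sub_C_scaleRoots]

variable {I : Type} [Fintype I] {G : Type} [Group G] [MulAction G I] {g : G}
variable (R : RedFamily k M I g) (σ : I → Fk k M →+* LaurentSeries k)

theorem sigma_evF
    (hσ : ∀ (i : I) (p : MvPolynomial (Dv M) k), σ i (polyF p) = MvPolynomial.aeval (R.ψ i) p)
    (i : I) (c : Polynomial k) :
    σ i (rgEvF c) = Polynomial.eval₂RingHom HahnSeries.C (JbarM k M) c := by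
  rw [← polyF_liftX, hσ]
  unfold rgLiftX
  rw [Polynomial.coe_eval₂RingHom, Polynomial.coe_eval₂RingHom,
    ← AlgHom.coe_toRingHom, Polynomial.hom_eval₂, AlgHom.coe_toRingHom, MvPolynomial.aeval_X,
    R.val_one]
  congr 1
  ext a n
  simp only [RingHom.comp_apply, AlgHom.coe_toRingHom, MvPolynomial.aeval_C, algebraMap_eq_C]

theorem sigma_comp_evF
    (hσ : ∀ (i : I) (p : MvPolynomial (Dv M) k), σ i (polyF p) = MvPolynomial.aeval (R.ψ i) p)
    (i : I) : (σ i).comp rgEvF = Polynomial.eval₂RingHom HahnSeries.C (JbarM k M) :=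
  RingHom.ext fun c => sigma_evF R σ hσ i c

/-- `sym` for polynomials in the generators -/
theorem sym_polyF
    (hσ : ∀ (i : I) (p : MvPolynomial (Dv M) k), σ i (polyF p) = MvPolynomial.aeval (R.ψ i) p)
    (p : MvPolynomial (Dv M) k) :
    ∃ Q : Polynomial (Polynomial k), Q.Monic ∧
      ∀ i₀ : I, (Q.map rgEvF).map (σ i₀) = ∏ i : I, (X - C (σ i (polyF p))) := by
  obtain ⟨Q, hQ, hmap⟩ := R.sym p
  refine ⟨Q, hQ, fun i₀ => ?_⟩
  rw [Polynomial.map_map, sigma_comp_evF R σ hσ, hmap]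
  refine Finset.prod_congr rfl fun i _ => ?_
  rw [hσ]

/-- every nonzero polynomial in the generators divides a nonzero polynomial in `j̄` -/
theorem exists_mul_eq_evF
    (hσ : ∀ (i : I) (p : MvPolynomial (Dv M) k), σ i (polyF p) = MvPolynomial.aeval (R.ψ i) p)
    (b : MvPolynomial (Dv M) k) (hb : polyF b ≠ 0) :
    ∃ (b' : MvPolynomial (Dv M) k) (n : Polynomial k),
      rgEvF (M := M) n ≠ 0 ∧ polyF b * polyF b' = rgEvF n := by
  classical
  obtain ⟨Q, hQ, hmap⟩ := sym_polyF R σ hσ b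
  -- `β` is a root of `Q`
  have hroot : (Q.map rgEvF).eval (polyF b) = 0 := by
    apply (σ R.i₀).injective
    rw [map_zero, ← Polynomial.eval_map_apply, hmap R.i₀, Polynomial.eval_prod]
    exact Finset.prod_eq_zero (Finset.mem_univ R.i₀) (by simp)
  -- the constant term
  have hc0 : rgEvF (M := M) (Q.coeff 0) ≠ 0 := by
    intro h0
    have h1 : ((Q.map rgEvF).map (σ R.i₀)).coeff 0 = 0 := by
      rw [Polynomial.coeff_map, Polynomial.coeff_map, h0, map_zero]
    rw [hmap R.i₀, Polynomial.coeff_zero_eq_eval_zero, Polynomial.eval_prod] at h1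
    rcases Finset.prod_eq_zero_iff.mp h1 with ⟨i, -, hi⟩
    simp only [eval_sub, eval_X, eval_C, zero_sub, neg_eq_zero] at hi
    exact hb ((map_eq_zero (σ i)).mp hi)
  refine ⟨Polynomial.eval₂ rgLiftX b Q.divX, -Q.coeff 0, ?_, ?_⟩
  · rw [map_neg]
    exact neg_ne_zero.mpr hc0
  · have h2 : polyF (M := M) (Polynomial.eval₂ rgLiftX b Q.divX)
        = (Q.divX.map rgEvF).eval (polyF b) := by
      rw [Polynomial.hom_eval₂, Polynomial.eval_map, polyF_comp_liftX]
    have h3 : Q.map rgEvF = (Q.divX.map rgEvF) * X + C (rgEvF (M := M) (Q.coeff 0)) := by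
      conv_lhs => rw [← Polynomial.divX_mul_X_add Q]
      rw [Polynomial.map_add, Polynomial.map_mul, Polynomial.map_X, Polynomial.map_C]
    rw [h3, Polynomial.eval_add, Polynomial.eval_mul, Polynomial.eval_X, Polynomial.eval_C]
      at hroot
    rw [h2, map_neg, mul_comm]
    exact eq_neg_of_add_eq_zero_left hroot

/-- **sym** -/
theorem sym_of_redFamily
    (hσ : ∀ (i : I) (p : MvPolynomial (Dv M) k), σ i (polyF p) = MvPolynomial.aeval (R.ψ i) p)
    (f : Fk k M) :
    ∃ P : Polynomial (Fk k M), (∀ n, P.coeff n ∈ k⟮(jk k M)⁻¹⟯) ∧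
      ∀ i₀ : I, P.map (σ i₀) = ∏ i : I, (X - C (σ i f)) := by
  classical
  obtain ⟨a, b, hb, rfl⟩ := exists_polyF_div f
  obtain ⟨b', n, hn, hbb'⟩ := exists_mul_eq_evF R σ hσ b hb
  have hb' : polyF b' ≠ 0 := by
    intro h0
    rw [h0, mul_zero] at hbb'
    exact hn hbb'.symm
  have hf : polyF a / polyF b = polyF (a * b') * (rgEvF (M := M) n)⁻¹ := by
    rw [map_mul, ← hbb']
    field_simp
  obtain ⟨Q, hQ, hmap⟩ := sym_polyF R σ hσ (a * b')
  have hQm : (Q.map (rgEvF (M := M))).Monic := hQ.map _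
  refine ⟨(Q.map rgEvF).scaleRoots (rgEvF (M := M) n)⁻¹, fun m => ?_, fun i₀ => ?_⟩
  · rw [adjoin_jk_inv, Polynomial.coeff_scaleRoots, Polynomial.coeff_map]
    exact mul_mem (rgEvF_mem _) (pow_mem (inv_mem (rgEvF_mem _)) _)
  · rw [Polynomial.map_scaleRoots _ _ _ (by rw [hQm.leadingCoeff, map_one]; exact one_ne_zero),
      hmap i₀, prod_X_sub_C_scaleRoots]
    refine Finset.prod_congr rfl fun i _ => ?_
    have e : σ i (polyF a / polyF b) = σ i (polyF (a * b')) * (σ i₀ (rgEvF n)⁻¹) := by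
      rw [hf, map_mul, map_inv₀, map_inv₀, sigma_evF R σ hσ i₀, sigma_evF R σ hσ i]
    rw [e]

end Fermat.Agent.GM

end
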