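/-
Item 75a, part (G_M), piece GM-R/G (helper15, with steps 4 + 5 by helper4): a family of
conjugate expansions on the generators gives the fibre data of `F_k(M)` over the cusps.
Assembly of `RedGenLift.lean` (INJ₀, the lift `σ_i`, `map_const`, `map_u`, `order_u`, `inj`),
`RedGenSym.lean` (`sym`) and `RedGenTwist.lean` (`order_smul`, `dvd`).
No sorry.
-/
import Mathlib
import Fermat.Agent.GM.RedGenLift
import Fermat.Agent.GM.RedGenSym

set_option autoImplicit false
set_option synthInstance.maxHeartbeats 400000

noncomputable section

namespace Fermat.Agent.GM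

open AlgebraicCurve ModularCurve IntermediateField CongruenceSubgroup
open Fermat.Agent.S24lib

/-- the fibre data of a family of conjugate expansions -/
def RedFamily.fiberData {k : Type} [Field k] {M : ℕ} [NeZero M] {I : Type}
    [Fintype I] {G : Type} [Group G] [MulAction G I] {g : G} (R : RedFamily k M I g) :
    FiberData k (Fk k M) k ((jk k M)⁻¹) I g where
  σ := R.sigma
  s := M
  s_pos := Nat.pos_of_ne_zero (NeZero.ne M)
  map_const := R.sigma_const
  map_u := fun i i' => by rw [R.sigma_u, R.sigma_u]
  order_u := R.order_sigma_u
  inj := R.sigma_injective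
  sym := sym_of_redFamily R R.sigma R.sigma_polyF
  order_smul := order_smul_of_redFamily R R.sigma R.sigma_polyF
  dvd := dvd_of_redFamily R R.sigma R.sigma_polyF

/-- **G**: a family of conjugate expansions gives the fibre data over the cusps. -/
theorem RedFamily.nonempty_fiberData {k : Type} [Field k] {M : ℕ} [NeZero M] {I : Type}
    [Fintype I] {G : Type} [Group G] [MulAction G I] {g : G} (R : RedFamily k M I g) :
    Nonempty (FiberData k (Fk k M) k ((jk k M)⁻¹) I g) :=
  ⟨R.fiberData⟩

end Fermat.Agent.GM

end
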