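/-
Item 75a, part (G_M), piece GM-R (owner helper4): DEFINITIONS of the instantiation.

`A ⊂ ℚ̄` a valuation ring, `k` its residue field, `Aim A = ιC(A) ⊂ ℂ`, `resIm A : Aim A → k`;
`psiRed A M q d ∈ k((t))` := coefficientwise reduction of `sig M q (j_d)` (S28lib), the
`q_M`-expansion of the conjugate `j_d ∘ q⁻¹`.
No sorry.
-/
import Mathlib
import Fermat.Agent.GM.RedDefs
import Fermat.Agent.S28lib.ConjInt
import Fermat.Agent.S28lib.FinalCore

set_option autoImplicit false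

noncomputable section

namespace Fermat.Agent.GM

open AlgebraicCurve ModularCurve IntermediateField CongruenceSubgroup
open Fermat.Agent.S24lib Fermat.Agent.S28lib
open scoped MatrixGroups

variable (A : ValuationSubring (AlgebraicClosure ℚ))

/-- the image of `A` in `ℂ` -/
def Aim : Subring ℂ := A.toSubring.map ιC

theorem mem_Aim_iff {z : ℂ} : z ∈ Aim A ↔ ∃ x ∈ A, ιC x = z := Iff.rfl

theorem ιC_mem_Aim {x : AlgebraicClosure ℚ} (hx : x ∈ A) : ιC x ∈ Aim A := ⟨x, hx, rfl⟩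

/-- `A ≃ ιC(A)` -/
def AimEquiv : ↥A.toSubring ≃+* ↥(Aim A) := A.toSubring.equivMapOfInjective ιC ιC_injective

@[simp] theorem coe_AimEquiv (x : ↥A.toSubring) : ((AimEquiv A x : ↥(Aim A)) : ℂ) = ιC x := rfl

/-- the residue map of `A`, transported to `ιC(A)` -/
def resIm : ↥(Aim A) →+* IsLocalRing.ResidueField ↥A :=
  (IsLocalRing.residue ↥A).comp (AimEquiv A).symm.toRingHom

theorem resIm_ιC {x : AlgebraicClosure ℚ} (hx : x ∈ A) :
    resIm A ⟨ιC x, ιC_mem_Aim A hx⟩ = IsLocalRing.residue ↥A ⟨x, hx⟩ := by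
  unfold resIm
  rw [RingHom.comp_apply]
  congr 1
  exact (AimEquiv A).symm_apply_apply ⟨x, hx⟩

theorem resIm_surjective : Function.Surjective (resIm A) := by
  intro c
  obtain ⟨x, rfl⟩ := IsLocalRing.residue_surjective c
  exact ⟨⟨ιC x.1, ιC_mem_Aim A x.2⟩, resIm_ιC A x.2⟩

/-- `ιC(A)` contains all roots of unity -/
theorem root_mem_Aim (M : ℕ) (hM : 0 < M) (ζ : ℂ) (hζ : ζ ^ M = 1) : ζ ∈ Aim A := by
  have hsplit : ((Polynomial.X : Polynomial (AlgebraicClosure ℚ)) ^ M - Polynomial.C 1).Splits :=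
    IsAlgClosed.splits _
  have hne : ((Polynomial.X : Polynomial (AlgebraicClosure ℚ)) ^ M - Polynomial.C 1) ≠ 0 :=
    Polynomial.X_pow_sub_C_ne_zero hM 1
  have hroot : (((Polynomial.X : Polynomial (AlgebraicClosure ℚ)) ^ M - Polynomial.C 1).map
      ιC).IsRoot ζ := by
    simp [Polynomial.IsRoot, hζ]
  obtain ⟨x, hx⟩ := hsplit.mem_range_of_isRoot hne hroot
  have hxM : x ^ M = 1 := by
    apply ιC_injective
    rw [map_pow, map_one, hx, hζ]
  refine ⟨x, ?_, hx⟩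
  rcases A.mem_or_inv_mem x with h | h
  · exact h
  · have e : x = x⁻¹ ^ (M - 1) := by
      have hx0 : x ≠ 0 := by
        rintro rfl
        rw [zero_pow hM.ne'] at hxM
        exact zero_ne_one hxM
      have h2 : x * x ^ (M - 1) = x ^ M := by
        rw [← pow_succ']
        congr 1
        omega
      have h4 : x⁻¹ ^ (M - 1) * x ^ (M - 1) = 1 := by
        rw [← mul_pow, inv_mul_cancel₀ hx0, one_pow]
      have h5 : x * x ^ (M - 1) = 1 := by rw [h2, hxM]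
      calc x = x * (x⁻¹ ^ (M - 1) * x ^ (M - 1)) := by rw [h4, mul_one]
        _ = (x * x ^ (M - 1)) * x⁻¹ ^ (M - 1) := by ring
        _ = x⁻¹ ^ (M - 1) := by rw [h5, one_mul]
    rw [e]
    exact pow_mem h _

variable {A} in
/-- the residue field has characteristic `ℓ` -/
theorem charP_residueField {ℓ : ℕ} [Fact ℓ.Prime] (hA : A.LiesOverPrime ℓ) :
    CharP (IsLocalRing.ResidueField ↥A) ℓ := by
  have hℓ : ((ℓ : ℕ) : IsLocalRing.ResidueField ↥A) = 0 := by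
    have hmem : ((ℓ : ℕ) : AlgebraicClosure ℚ) ∈ A := natCast_mem A ℓ
    have h1 : ((ℓ : ℕ) : IsLocalRing.ResidueField ↥A)
        = IsLocalRing.residue ↥A ⟨((ℓ : ℕ) : AlgebraicClosure ℚ), hmem⟩ := by
      rw [← map_natCast (IsLocalRing.residue ↥A)]
      rfl
    rw [h1, IsLocalRing.residue_eq_zero_iff]
    intro hu
    have hnu : ((ℓ : ℕ) : AlgebraicClosure ℚ) ∈ A.nonunits := hA
    rw [ValuationSubring.mem_nonunits_iff_exists_mem_maximalIdeal] at hnu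
    obtain ⟨ha, hmax⟩ := hnu
    exact ((IsLocalRing.mem_maximalIdeal _).mp hmax) hu
  obtain ⟨p, hp⟩ := CharP.exists (IsLocalRing.ResidueField ↥A)
  have hdvd : p ∣ ℓ := (CharP.cast_eq_zero_iff (IsLocalRing.ResidueField ↥A) p ℓ).mp hℓ
  have hp1 : p ≠ 1 := CharP.char_ne_one (IsLocalRing.ResidueField ↥A) p
  have : p = ℓ := ((Nat.dvd_prime (Fact.out : ℓ.Prime)).mp hdvd).resolve_left hp1
  rwa [this] at hp

variable {A} in
/-- integers prime to `ℓ` are invertible in `ιC(A)` -/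
theorem inv_natCast_mem_Aim {ℓ : ℕ} [Fact ℓ.Prime] (hA : A.LiesOverPrime ℓ) (m : ℕ)
    (hm : ¬ ℓ ∣ m) : ((m : ℂ))⁻¹ ∈ Aim A := by
  haveI := charP_residueField hA
  have hmem : ((m : ℕ) : AlgebraicClosure ℚ) ∈ A := natCast_mem A m
  have hres : IsLocalRing.residue ↥A ⟨((m : ℕ) : AlgebraicClosure ℚ), hmem⟩ ≠ 0 := by
    have h1 : IsLocalRing.residue ↥A ⟨((m : ℕ) : AlgebraicClosure ℚ), hmem⟩
        = ((m : ℕ) : IsLocalRing.ResidueField ↥A) := by
      rw [← map_natCast (IsLocalRing.residue ↥A)]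
      rfl
    rw [h1]
    intro h0
    exact hm ((CharP.cast_eq_zero_iff (IsLocalRing.ResidueField ↥A) ℓ m).mp h0)
  have hunit : IsUnit (⟨((m : ℕ) : AlgebraicClosure ℚ), hmem⟩ : ↥A) := by
    by_contra hnu
    exact hres ((IsLocalRing.residue_eq_zero_iff _).mpr hnu)
  obtain ⟨u, hu⟩ := hunit
  refine ⟨((u⁻¹ : (↥A)ˣ) : ↥A).1, ((u⁻¹ : (↥A)ˣ) : ↥A).2, ?_⟩
  have h2 : ((u : ↥A) : AlgebraicClosure ℚ) * (((u⁻¹ : (↥A)ˣ) : ↥A) : AlgebraicClosure ℚ) = 1 := by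
    have h := congrArg (fun z : ↥A => (z : AlgebraicClosure ℚ)) (Units.mul_inv u)
    exact h
  rw [hu] at h2
  have h3 : ιC ((m : ℕ) : AlgebraicClosure ℚ) * ιC (((u⁻¹ : (↥A)ˣ) : ↥A) : AlgebraicClosure ℚ)
      = 1 := by rw [← map_mul, h2, map_one]
  rw [map_natCast] at h3
  exact (eq_inv_of_mul_eq_one_right h3)

variable {A} in
/-- `ℤ_(ℓ) ⊆ ιC(A)` -/
theorem ratLoc_mem_Aim {ℓ : ℕ} [Fact ℓ.Prime] (hA : A.LiesOverPrime ℓ) (x : ℚ)
    (hx : x ∈ GaloisRep.ratLocalizedAt ℓ) : ((x : ℂ)) ∈ Aim A :=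
  ratCast_mem_of_inv_mem (Aim A) (inv_natCast_mem_Aim hA) x hx

variable (M : ℕ) [NeZero M]

/-- the generator `j_d = j(q^d)` of the function field over `ℚ` -/
def jdQ (d : Dv M) : ↥(modularFunctionFieldFull M) :=
  haveI : NeZero d.1 := ⟨d.ne_zero⟩
  ⟨qExpand ℚ d.1 jq, jqd_mem_full M d.2⟩

theorem sig_jdQ_mem (q : SL(2, ℤ) ⧸ Gamma0 M) (d : Dv M) :
    sig M q (jdQ M d) ∈ coeffRing (Aim A) := by
  haveI : NeZero d.1 := ⟨d.ne_zero⟩
  rw [mem_coeffRing_iff]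
  intro n
  exact sig_jd_coeff_mem M (Aim A)
    (root_mem_Aim A M (Nat.pos_of_ne_zero (NeZero.ne M))) q d.1 d.2 n

/-- **the reduced conjugate expansions on the generators** -/
def psiRed (q : SL(2, ℤ) ⧸ Gamma0 M) (d : Dv M) : LaurentSeries (IsLocalRing.ResidueField ↥A) :=
  coeffRed (resIm A) ⟨sig M q (jdQ M d), sig_jdQ_mem A M q d⟩

theorem psiRed_coeff (q : SL(2, ℤ) ⧸ Gamma0 M) (d : Dv M) (n : ℤ)
    (hn : (sig M q (jdQ M d)).coeff n ∈ Aim A) :
    (psiRed A M q d).coeff n = resIm A ⟨(sig M q (jdQ M d)).coeff n, hn⟩ :=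
  coeffRed_coeff (resIm A) ⟨sig M q (jdQ M d), sig_jdQ_mem A M q d⟩ n hn

end Fermat.Agent.GM

end
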