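/-
Item 75a, part (G_M), piece GM-R (owner helper4): I-BASE and I-ONE.
The reduced expansions of the identity conjugate, and of `j`, are the expected series.
No sorry.
-/
import Mathlib
import Fermat.Agent.GM.RedInstDefs
import Fermat.Agent.S28lib.SymRat

set_option autoImplicit false

noncomputable section

namespace Fermat.Agent.GM

open AlgebraicCurve ModularCurve IntermediateField CongruenceSubgroup
open Fermat.Agent.S24lib Fermat.Agent.S28lib
open scoped MatrixGroups

variable (A : ValuationSubring (AlgebraicClosure ℚ))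

/-- series with integer coefficients have coefficients in `ιC(A)` -/
theorem intSeries_mem_coeffRing (x : LaurentSeries ℤ) :
    coeffMap (Int.castRingHom ℂ) x ∈ coeffRing (Aim A) := by
  rw [mem_coeffRing_iff]
  intro n
  rw [coeffMap_coeff]
  exact intCast_mem (Aim A) _

/-- the reduction of a series with integer coefficients -/
theorem coeffRed_intSeries (x : LaurentSeries ℤ) (s : LaurentSeries ℂ)
    (hs : s = coeffMap (Int.castRingHom ℂ) x) (h : s ∈ coeffRing (Aim A)) :
    coeffRed (resIm A) ⟨s, h⟩ = coeffMap (Int.castRingHom (IsLocalRing.ResidueField ↥A)) x := by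
  subst hs
  ext n
  rw [coeffRed_coeff (resIm A) _ n (mem_coeffRing_iff.mp h n)]
  have e : (⟨(coeffMap (Int.castRingHom ℂ) x).coeff n, mem_coeffRing_iff.mp h n⟩ : ↥(Aim A))
      = ((x.coeff n : ℤ) : ↥(Aim A)) := by
    apply Subtype.ext
    simp [coeffMap_coeff]
  exact (congrArg (resIm A) e).trans (map_intCast (resIm A) _)

theorem coeffMap_jq_eq : coeffMap (algebraMap ℚ ℂ) jq = coeffMap (Int.castRingHom ℂ) (jqModC ℤ) := by
  rw [← jqModC_rat, ← coeffMap_jqModC (Int.castRingHom ℚ), coeffMap_coeffMap,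
    RingHom.ext_int ((algebraMap ℚ ℂ).comp (Int.castRingHom ℚ)) (Int.castRingHom ℂ)]

variable (M : ℕ) [NeZero M]

theorem coe_jdQ (d : Dv M) :
    haveI : NeZero d.1 := ⟨d.ne_zero⟩
    ((jdQ M d : ↥(modularFunctionFieldFull M)) : LaurentSeries ℚ) = qExpand ℚ d.1 jq := rfl

/-- **I-BASE** -/
theorem psiRed_base (d : Dv M) :
    psiRed A M ((1 : SL(2, ℤ)) : SL(2, ℤ) ⧸ Gamma0 M) d
      = qExpand (IsLocalRing.ResidueField ↥A) M (jbarGen (IsLocalRing.ResidueField ↥A) M d) := by
  haveI : NeZero d.1 := ⟨d.ne_zero⟩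
  unfold psiRed
  have hs : sig M ((1 : SL(2, ℤ)) : SL(2, ℤ) ⧸ Gamma0 M) (jdQ M d)
      = coeffMap (Int.castRingHom ℂ) (qExpand ℤ M (qExpand ℤ d.1 (jqModC ℤ))) := by
    rw [sig_one, coe_jdQ, coeffMap_qExpand, coeffMap_jq_eq, coeffMap_qExpand, coeffMap_qExpand]
  rw [coeffRed_intSeries A _ _ hs, coeffMap_qExpand, coeffMap_qExpand, coeffMap_jqModC]
  rfl

theorem jdQ_one : jdQ M ⟨1, one_dvd M⟩ = ModularCurve.IgusaScheme.jFull M := by
  apply Subtype.ext
  rw [coe_jdQ]
  exact qExpand_one_apply _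

/-- **I-ONE** -/
theorem psiRed_one (q : SL(2, ℤ) ⧸ Gamma0 M) :
    psiRed A M q ⟨1, one_dvd M⟩ = JbarM (IsLocalRing.ResidueField ↥A) M := by
  unfold psiRed
  have hs : sig M q (jdQ M ⟨1, one_dvd M⟩)
      = coeffMap (Int.castRingHom ℂ) (qExpand ℤ M (jqModC ℤ)) := by
    rw [jdQ_one, sig_jFull, coeffMap_jq_eq, coeffMap_qExpand]
  rw [coeffRed_intSeries A _ _ hs, coeffMap_qExpand, coeffMap_jqModC]
  rfl

end Fermat.Agent.GM

end
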