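/-
Item 75a, part (G_M), piece GM-R (owner helper4): roots of unity of order prime to `ℓ` inject
into the residue field.  No sorry.
-/
import Mathlib
import Fermat.Agent.GM.RedInstDefs

set_option autoImplicit false

noncomputable section

namespace Fermat.Agent.GM

open Fermat.Agent.S24lib Fermat.Agent.S28lib

variable {A : ValuationSubring (AlgebraicClosure ℚ)} {ℓ : ℕ} [Fact ℓ.Prime]

/-- a root of unity of order prime to `ℓ` which reduces to `1` is `1` -/
theorem eq_one_of_resIm_eq_one (hA : A.LiesOverPrime ℓ) {M : ℕ} (hM : 0 < M) (hℓM : ¬ ℓ ∣ M)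
    (w : ↥(Aim A)) (hw : w ^ M = 1) (hres : resIm A w = 1) : w = 1 := by
  haveI := charP_residueField hA
  by_contra hne
  have hgeom : (w - 1) * ∑ i ∈ Finset.range M, w ^ i = 0 := by
    rw [mul_comm, geom_sum_mul, hw, sub_self]
  have hsum : ∑ i ∈ Finset.range M, w ^ i = 0 := by
    rcases mul_eq_zero.mp hgeom with h | h
    · exact absurd (sub_eq_zero.mp h) hne
    · exact h
  have h2 := congrArg (resIm A) hsum
  rw [map_sum, map_zero] at h2
  simp only [map_pow, hres, one_pow, Finset.sum_const, Finset.card_range, nsmul_eq_mul,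
    mul_one] at h2
  exact hℓM ((CharP.cast_eq_zero_iff (IsLocalRing.ResidueField ↥A) ℓ M).mp h2)

/-- roots of unity of order prime to `ℓ` inject into the residue field -/
theorem resIm_root_injective (hA : A.LiesOverPrime ℓ) {M : ℕ} (hM : 0 < M) (hℓM : ¬ ℓ ∣ M)
    (x y : ↥(Aim A)) (hx : x ^ M = 1) (hy : y ^ M = 1) (hres : resIm A x = resIm A y) :
    x = y := by
  have hy' : y * y ^ (M - 1) = 1 := by
    rw [← pow_succ', Nat.sub_add_cancel hM, hy]
  have hw : (x * y ^ (M - 1)) ^ M = 1 := by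
    rw [mul_pow, hx, one_mul, ← pow_mul, mul_comm, pow_mul, hy, one_pow]
  have hr : resIm A (x * y ^ (M - 1)) = 1 := by
    rw [map_mul, hres, ← map_mul, hy', map_one]
  have h1 := eq_one_of_resIm_eq_one hA hM hℓM _ hw hr
  calc x = x * (y * y ^ (M - 1)) := by rw [hy', mul_one]
    _ = (x * y ^ (M - 1)) * y := by ring
    _ = y := by rw [h1, one_mul]

/-- the reduction of a primitive `M`-th root of unity is primitive (`ℓ ∤ M`) -/
theorem isPrimitiveRoot_resIm (hA : A.LiesOverPrime ℓ) {M : ℕ} (hM : 0 < M) (hℓM : ¬ ℓ ∣ M)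
    (z : ↥(Aim A)) (hz : IsPrimitiveRoot z M) : IsPrimitiveRoot (resIm A z) M := by
  refine ⟨by rw [← map_pow, hz.pow_eq_one, map_one], fun l hl => ?_⟩
  have h1 : (z ^ l) ^ M = 1 := by rw [← pow_mul, mul_comm, pow_mul, hz.pow_eq_one, one_pow]
  have h2 : resIm A (z ^ l) = 1 := by rw [map_pow, hl]
  exact hz.dvd_of_pow_eq_one l (eq_one_of_resIm_eq_one hA hM hℓM _ h1 h2)

end Fermat.Agent.GM

end
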