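/-
Item 75a, part (G_M), piece GM-R (owner helper4): I-DIST.
The reduced conjugate expansions are pairwise distinct: the leading term of the conjugate
`j_M ∘ q⁻¹` is `u⁻¹ t^{-e}` with `u` a root of unity of order dividing `M`, and roots of unity of
order prime to `ℓ` inject into the residue field.
No sorry.
-/
import Mathlib
import Fermat.Agent.GM.RedInstDefs
import Fermat.Agent.GM.RedInstRoots
import Fermat.Agent.S24lib.Dist

set_option autoImplicit false

noncomputable section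

namespace Fermat.Agent.GM

open AlgebraicCurve ModularCurve IntermediateField CongruenceSubgroup UpperHalfPlane
open Fermat.Agent.S24lib Fermat.Agent.S28lib Fermat.Agent.S20lib
open scoped MatrixGroups

/-- the explicit series `J(u t^e)` -/
def explSeries (e : ℕ) (u : ℂ) : LaurentSeries ℂ :=
  HahnSeries.single (-(e : ℤ)) (1 : ℂ) *
    HahnSeries.ofPowerSeries ℤ ℂ (PowerSeries.mk fun k : ℕ =>
      if e ∣ k then ((jq.coeff (((k / e : ℕ) : ℤ) - 1) : ℚ) : ℂ) * u ^ (((k / e : ℕ) : ℤ) - 1)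
      else 0)

theorem explSeries_coeff_lead (e : ℕ) (u : ℂ) : (explSeries e u).coeff (-(e : ℤ)) = u⁻¹ := by
  unfold explSeries
  rw [HahnSeries.coeff_single_mul, one_mul, sub_self]
  have h0 : ((0 : ℕ) : ℤ) = 0 := rfl
  rw [← h0, HahnSeries.ofPowerSeries_apply_coeff, PowerSeries.coeff_mk, if_pos (dvd_zero e),
    Nat.zero_div]
  simp [coeff_jq_neg_one]

theorem explSeries_coeff_low (e : ℕ) (u : ℂ) (n : ℤ) (hn : n < -(e : ℤ)) :
    (explSeries e u).coeff n = 0 := by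
  unfold explSeries
  rw [HahnSeries.coeff_single_mul, one_mul]
  rw [HahnSeries.ofPowerSeries_apply, HahnSeries.embDomain_of_notMem_range]
  rintro ⟨j, hj⟩
  have : (0 : ℤ) ≤ n - -(e : ℤ) := by
    rw [← hj]
    simp
  omega

variable (M : ℕ) [NeZero M]

theorem sig_jdQ_eq_expInf (q : SL(2, ℤ) ⧸ Gamma0 M) (d : Dv M) :
    sig M q (jdQ M d) = expInf M (q.out • jdWH M d.1 d.2) := by
  haveI : NeZero d.1 := ⟨d.ne_zero⟩
  have h : toFF M (jdQ M d) = jdF M d.1 d.2 := rfl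
  rw [sig_apply, h, embF_jdF, twist_apply]

/-- **explicit conjugate expansions**: `sig M q (j_d) = J(u t^e)` -/
theorem sig_jdQ_explicit (q : SL(2, ℤ) ⧸ Gamma0 M) (d : Dv M) :
    ∃ (e : ℕ) (u : ℂ), 0 < e ∧ u ^ M = 1 ∧ sig M q (jdQ M d) = explSeries e u := by
  haveI hdne : NeZero d.1 := ⟨d.ne_zero⟩
  obtain ⟨a, δ, b, ha, hδ, haδ, -, -, hj⟩ := jH_nmulH_smul d.1 (q.out⁻¹)
  have hδN : δ ∣ M := (Dvd.intro_left a haδ).trans d.2
  have hN : 0 < M := Nat.pos_of_ne_zero (NeZero.ne M)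
  obtain ⟨e, he_def⟩ : ∃ e : ℕ, e = a * (M / δ) := ⟨_, rfl⟩
  have he : 0 < e := by
    rw [he_def]
    exact Nat.mul_pos ha (Nat.div_pos (Nat.le_of_dvd hN hδN) hδ)
  obtain ⟨u, hu⟩ : ∃ u : ℂ, u = zetaC δ ^ b := ⟨_, rfl⟩
  have hune : u ≠ 0 := by
    rw [hu]
    exact zpow_ne_zero _ (Complex.exp_ne_zero _)
  have huM : u ^ M = 1 := by
    rw [hu]
    exact ci_zetaC_zpow_pow M δ hδ hδN b
  refine ⟨e, u, he, huM, ?_⟩
  rw [sig_jdQ_eq_expInf]
  unfold explSeries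
  apply expInf_eq_of_hasSum
  intro z
  obtain ⟨c', hc'⟩ : ∃ c' : ℕ → ℂ, c' = fun n : ℕ =>
      ((ModularCurve.jq.coeff ((n : ℤ) - 1) : ℚ) : ℂ) * u ^ ((n : ℤ) - 1) := ⟨_, rfl⟩
  have key : HasSum (fun k : ℕ => (if e ∣ k then c' (k / e) else 0) *
      Function.Periodic.qParam M (z : ℂ) ^ k)
      (Function.Periodic.qParam M (z : ℂ) ^ e *
        jH (ofComplex ((d.1 : ℂ) * ((q.out⁻¹ • z : ℍ) : ℂ)))) := by
    apply hasSum_pow_reindex e he c'
    have h := hasSum_jH_affH M a δ b ha hδ hN hδN z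
    rw [← hu, ← he_def] at h
    have h2 := h.mul_left (u⁻¹)
    have hS : u⁻¹ * (u * Function.Periodic.qParam M (z : ℂ) ^ e * jH (affH a δ b ha hδ z)) =
        Function.Periodic.qParam M (z : ℂ) ^ e *
          jH (ofComplex ((d.1 : ℂ) * ((q.out⁻¹ • z : ℍ) : ℂ))) := by
      rw [jd_raw_eq, hj z]
      field_simp
    have hF : (fun i : ℕ => u⁻¹ * (((ModularCurve.jq.coeff ((i : ℤ) - 1) : ℚ) : ℂ) *
        (u * Function.Periodic.qParam M (z : ℂ) ^ e) ^ i)) =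
        fun n : ℕ => c' n * (Function.Periodic.qParam M (z : ℂ) ^ e) ^ n := by
      funext n
      rw [hc']
      simp only
      rw [mul_pow, zpow_sub_one₀ hune, zpow_natCast]
      ring
    rw [hS, hF] at h2
    exact h2
  have hval : ((q.out • jdWH M d.1 d.2 : WH M) : ℍ → ℂ) z
      = jH (ofComplex ((d.1 : ℂ) * ((q.out⁻¹ • z : ℍ) : ℂ))) := by
    rw [wh_smul_apply]
    rfl
  rw [hval]
  rw [hc'] at key
  exact key

/-- two conjugates with the same expansion of `j_M` are equal -/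
theorem eq_of_sig_jM_eq (q q' : SL(2, ℤ) ⧸ Gamma0 M)
    (h : sig M q (jdQ M ⟨M, dvd_rfl⟩) = sig M q' (jdQ M ⟨M, dvd_rfl⟩)) : q = q' := by
  rw [sig_jdQ_eq_expInf, sig_jdQ_eq_expInf] at h
  have h2 : q.out • jdWH M M dvd_rfl = q'.out • jdWH M M dvd_rfl := expInf_injective M h
  have h3 : (QuotientGroup.mk q.out : SL(2, ℤ) ⧸ Gamma0 M) = QuotientGroup.mk q'.out := by
    apply jN_coset_eq
    intro z
    have h4 := congrArg (fun φ : WH M => (φ : ℍ → ℂ) z) h2
    simp only [wh_smul_apply] at h4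
    have e1 : ((jdWH M M dvd_rfl : WH M) : ℍ → ℂ) = jdH M := rfl
    rw [e1, jdH_eq_jFun, jdH_eq_jFun] at h4
    exact h4
  rw [QuotientGroup.out_eq', QuotientGroup.out_eq'] at h3
  exact h3

variable (A : ValuationSubring (AlgebraicClosure ℚ)) {ℓ : ℕ} [Fact ℓ.Prime]

/-- **I-DIST** -/
theorem psiRed_injective (hA : A.LiesOverPrime ℓ) (hℓM : ¬ ℓ ∣ M) :
    Function.Injective (psiRed A M) := by
  have hM : 0 < M := Nat.pos_of_ne_zero (NeZero.ne M)
  -- the leading term of the reduction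
  have lead : ∀ (q : SL(2, ℤ) ⧸ Gamma0 M) (e : ℕ) (u : ℂ) (hu : u ^ M = 1)
      (hs : sig M q (jdQ M ⟨M, dvd_rfl⟩) = explSeries e u),
      ∃ hmem : u⁻¹ ∈ Aim A, (psiRed A M q ⟨M, dvd_rfl⟩).coeff (-(e : ℤ)) = resIm A ⟨u⁻¹, hmem⟩ ∧
        resIm A ⟨u⁻¹, hmem⟩ ≠ 0 ∧
        ∀ n : ℤ, n < -(e : ℤ) → (psiRed A M q ⟨M, dvd_rfl⟩).coeff n = 0 := by
    intro q e u hu hs
    have hu1 : u⁻¹ ^ M = 1 := by rw [inv_pow, hu, inv_one]
    have hmem : u⁻¹ ∈ Aim A := root_mem_Aim A M hM _ hu1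
    have humem : u ∈ Aim A := root_mem_Aim A M hM _ hu
    refine ⟨hmem, ?_, ?_, ?_⟩
    · have hc : (sig M q (jdQ M ⟨M, dvd_rfl⟩)).coeff (-(e : ℤ)) ∈ Aim A :=
        mem_coeffRing_iff.mp (sig_jdQ_mem A M q _) _
      rw [psiRed_coeff A M q _ _ hc]
      congr 1
      apply Subtype.ext
      simp only
      rw [hs, explSeries_coeff_lead]
    · intro h0
      have h1 : (⟨u⁻¹, hmem⟩ : ↥(Aim A)) * ⟨u, humem⟩ = 1 := by
        apply Subtype.ext
        have hune : u ≠ 0 := by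
          rintro rfl
          rw [zero_pow hM.ne'] at hu
          exact zero_ne_one hu
        simp [inv_mul_cancel₀ hune]
      have h2 := congrArg (resIm A) h1
      rw [map_mul, h0, zero_mul, map_one] at h2
      exact zero_ne_one h2
    · intro n hn
      have hc : (sig M q (jdQ M ⟨M, dvd_rfl⟩)).coeff n ∈ Aim A :=
        mem_coeffRing_iff.mp (sig_jdQ_mem A M q _) _
      rw [psiRed_coeff A M q _ _ hc]
      have e0 : (⟨(sig M q (jdQ M ⟨M, dvd_rfl⟩)).coeff n, hc⟩ : ↥(Aim A)) = 0 := by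
        apply Subtype.ext
        simp only [ZeroMemClass.coe_zero]
        rw [hs, explSeries_coeff_low e u n hn]
      rw [e0, map_zero]
  intro q q' hqq
  have hq := congrFun hqq ⟨M, dvd_rfl⟩
  obtain ⟨e, u, he, hu, hs⟩ := sig_jdQ_explicit M q ⟨M, dvd_rfl⟩
  obtain ⟨e', u', he', hu', hs'⟩ := sig_jdQ_explicit M q' ⟨M, dvd_rfl⟩
  obtain ⟨hm, hl1, hl2, hl3⟩ := lead q e u hu hs
  obtain ⟨hm', hl1', hl2', hl3'⟩ := lead q' e' u' hu' hs'
  have hee : e = e' := by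
    apply le_antisymm
    · by_contra hlt
      push Not at hlt
      have h1 := hl3' (-(e : ℤ)) (by omega)
      rw [← hq, hl1] at h1
      exact hl2 h1
    · by_contra hlt
      push Not at hlt
      have h1 := hl3 (-(e' : ℤ)) (by omega)
      rw [hq, hl1'] at h1
      exact hl2' h1
  subst hee
  have hres : resIm A ⟨u⁻¹, hm⟩ = resIm A ⟨u'⁻¹, hm'⟩ := by
    rw [← hl1, ← hl1', hq]
  have huu : (⟨u⁻¹, hm⟩ : ↥(Aim A)) = ⟨u'⁻¹, hm'⟩ :=
    resIm_root_injective hA hM hℓM _ _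
      (Subtype.ext (by simp [inv_pow, hu])) (Subtype.ext (by simp [inv_pow, hu'])) hres
  have huu' : u = u' := by
    have := congrArg Subtype.val huu
    simpa using this
  subst huu'
  exact eq_of_sig_jM_eq M q q' (hs.trans hs'.symm)

end Fermat.Agent.GM

end
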