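/-
Item 75a, GM-R, piece I-KEY (helper24) — GENERIC linear disjointness:
a polynomial relation with coefficients in `k` between Laurent series with coefficients in a
subfield `k₀` is a `k`-linear combination of relations with coefficients in `k₀`.
No sorry.
-/
import Mathlib
import Fermat.Prelude.Def_ModularCurve_X0ModL

set_option autoImplicit false

open ModularCurve

namespace Fermat.Agent.GM

noncomputable section

theorem ld_coeffMap_C {R S : Type*} [CommRing R] [CommRing S] (f : R →+* S) :
    (coeffMap f).comp (HahnSeries.C : R →+* LaurentSeries R) =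
      (HahnSeries.C : S →+* LaurentSeries S).comp f := by
  ext a : 1
  exact coeffMap_single f 0 a

/-- **Linear disjointness.** Let `k₀ → k` be fields, `φ₀ : σ → k₀((q))` and `Ψ` a ring hom on
`k[X_σ]`.  If `Ψ` kills (the image of) every relation between the `φ₀ d` with coefficients in
`k₀`, then it kills every relation with coefficients in `k`. -/
theorem ld_key {k₀ k : Type*} [Field k₀] [Field k] [Algebra k₀ k] {σ : Type*} {T : Type*}
    [CommRing T] (φ₀ : σ → LaurentSeries k₀) (Ψ : MvPolynomial σ k →+* T)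
    (h₀ : ∀ p₀ : MvPolynomial σ k₀, MvPolynomial.eval₂ HahnSeries.C φ₀ p₀ = 0 →
      Ψ (MvPolynomial.map (algebraMap k₀ k) p₀) = 0)
    (p : MvPolynomial σ k)
    (hp : MvPolynomial.eval₂ HahnSeries.C (fun d => coeffMap (algebraMap k₀ k) (φ₀ d)) p = 0) :
    Ψ p = 0 := by
  classical
  -- the span of the coefficients
  set V : Submodule k₀ k := Submodule.span k₀ ((p.support.image p.coeff : Finset k) : Set k)
    with hV
  haveI : FiniteDimensional k₀ V := FiniteDimensional.span_finset k₀ _
  have hmem : ∀ m, p.coeff m ∈ V := by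
    intro m
    by_cases hm : m ∈ p.support
    · exact Submodule.subset_span (Finset.mem_coe.mpr (Finset.mem_image_of_mem _ hm))
    · rw [MvPolynomial.notMem_support_iff.mp hm]
      exact V.zero_mem
  let b := Module.finBasis k₀ V
  let a : (σ →₀ ℕ) → Fin (Module.finrank k₀ V) → k₀ := fun m β => b.repr ⟨p.coeff m, hmem m⟩ β
  have ha0 : ∀ m, m ∉ p.support → ∀ β, a m β = 0 := by
    intro m hm β
    have : (⟨p.coeff m, hmem m⟩ : V) = 0 := Subtype.ext (MvPolynomial.notMem_support_iff.mp hm)
    simp only [a, this, map_zero, Finsupp.coe_zero, Pi.zero_apply]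
  have hsum : ∀ m, p.coeff m = ∑ β, algebraMap k₀ k (a m β) * (b β : k) := by
    intro m
    have h1 := b.sum_repr ⟨p.coeff m, hmem m⟩
    have h2 : p.coeff m = ((∑ i, (b.repr ⟨p.coeff m, hmem m⟩) i • b i : V) : k) :=
      (congrArg (Subtype.val : V → k) h1).symm
    rw [h2, AddSubmonoidClass.coe_finset_sum]
    refine Finset.sum_congr rfl fun β _ => ?_
    rw [Submodule.coe_smul, Algebra.smul_def]
  let p₀ : Fin (Module.finrank k₀ V) → MvPolynomial σ k₀ := fun β =>
    ∑ m ∈ p.support, MvPolynomial.monomial m (a m β)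
  have hp₀ : ∀ β m, (p₀ β).coeff m = a m β := by
    intro β m
    simp only [p₀, MvPolynomial.coeff_sum, MvPolynomial.coeff_monomial]
    rw [Finset.sum_ite_eq' p.support m]
    split_ifs with hm
    · rfl
    · exact (ha0 m hm β).symm
  have hdecomp : p = ∑ β, MvPolynomial.C (b β : k) * MvPolynomial.map (algebraMap k₀ k) (p₀ β) := by
    ext m
    rw [MvPolynomial.coeff_sum, hsum m]
    refine Finset.sum_congr rfl fun β _ => ?_
    rw [MvPolynomial.coeff_C_mul, MvPolynomial.coeff_map, hp₀, mul_comm]
  -- each component is a relation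
  have hev : ∀ q₀ : MvPolynomial σ k₀,
      MvPolynomial.eval₂ HahnSeries.C (fun d => coeffMap (algebraMap k₀ k) (φ₀ d))
        (MvPolynomial.map (algebraMap k₀ k) q₀) =
      coeffMap (algebraMap k₀ k) (MvPolynomial.eval₂ HahnSeries.C φ₀ q₀) := by
    intro q₀
    rw [MvPolynomial.eval₂_map, MvPolynomial.eval₂_comp_left (coeffMap (algebraMap k₀ k)),
      ld_coeffMap_C]
    rfl
  have hX : ∀ β, MvPolynomial.eval₂ HahnSeries.C φ₀ (p₀ β) = 0 := by
    have hcoef : ∀ n : ℤ, ∑ β, (MvPolynomial.eval₂ HahnSeries.C φ₀ (p₀ β)).coeff n • b β = 0 := by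
      intro n
      apply Subtype.ext
      rw [AddSubmonoidClass.coe_finset_sum]
      have h1 := congrArg (fun z : LaurentSeries k => z.coeff n) hp
      simp only [HahnSeries.coeff_zero] at h1
      rw [hdecomp, MvPolynomial.eval₂_sum, HahnSeries.coeff_sum] at h1
      rw [ZeroMemClass.coe_zero, ← h1]
      refine Finset.sum_congr rfl fun β _ => ?_
      rw [MvPolynomial.eval₂_mul, MvPolynomial.eval₂_C, hev,
        HahnSeries.C_mul_eq_smul, HahnSeries.coeff_smul, coeffMap_coeff, Submodule.coe_smul,
        Algebra.smul_def, smul_eq_mul, mul_comm]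
    intro β
    ext n
    have := Fintype.linearIndependent_iff.mp b.linearIndependent _ (hcoef n) β
    simpa using this
  rw [hdecomp, map_sum]
  refine Finset.sum_eq_zero fun β _ => ?_
  rw [map_mul, h₀ (p₀ β) (hX β), mul_zero]

end

end Fermat.Agent.GM
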