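/-
Item 75a, GM-R, piece I-KEY (helper24): `psiRed_key`.
Every polynomial relation (coefficients in `k`, the residue field of `A`) between the generators
`j̄_d` of `F_k(M)` holds for all reduced conjugate expansions `psiRed A M q`.

Proof: linear disjointness (`ld_key`) reduces to relations with coefficients in `𝔽_ℓ`; such a
relation lifts to `P ∈ ℤ[X_d]`, `y = P(j_d) ∈ chartAlgFin M ℓ` has `q`-expansion `≡ 0 mod ℓ`, and
S28lib/KeySig `coeffRed_sig_eq_zero_of_redMid` (the KEY lemma for all conjugates) applies.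
No sorry.
-/
import Mathlib
import Fermat.Agent.GM.RedInstDefs
import Fermat.Agent.GM.RedInstKeyAlg
import Fermat.Agent.S28lib.KeySig
import Fermat.Agent.S28lib.UnitInt

set_option autoImplicit false

noncomputable section

namespace Fermat.Agent.GM

open AlgebraicCurve ModularCurve ModularCurve.IgusaScheme IntermediateField CongruenceSubgroup
open Fermat.Agent.S24lib Fermat.Agent.S28lib
open scoped MatrixGroups

variable (A : ValuationSubring (AlgebraicClosure ℚ)) (M : ℕ) [NeZero M] {ℓ : ℕ} [Fact ℓ.Prime]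

/-! ### The generators lie in the finite chart -/

/-- an element of `F`, integral over `ℚ[j]`, all of whose conjugate expansions have coefficients
in every ring containing the `M`-th roots of unity, lies in the finite chart -/
theorem mem_chartAlgFin_of_isIntegral (hℓM : ¬ ℓ ∣ M) (z : ↥(modularFunctionFieldFull M))
    (hint : IsIntegral ↥(Algebra.adjoin ℚ ({jFull M} : Set ↥(modularFunctionFieldFull M))) z)
    (hcoeff : ∀ A' : Subring ℂ, (∀ ζ : ℂ, ζ ^ M = 1 → ζ ∈ A') →
      ∀ q, sig M q z ∈ coeffRing A') : z ∈ chartAlgFin M ℓ := by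
  classical
  obtain ⟨A, 𝔽, i𝔽, iC, r, hPID, hζ, hinv, hker, hrat⟩ := exists_cycRed M ℓ hℓM
  obtain ⟨u, hu0, hui, huinv, huc, huic, huo⟩ := exists_unit M ℓ hℓM A hζ hinv
  exact mem_chart_of_int (mkExpData A 𝔽 r hPID hζ hinv hker hrat u hu0 hui huinv huc huic
    (unit_order_of r huc huo)) z ((isIntegral_adjoin_rat_iff z).mp hint)
    (fun q => hcoeff A hζ q)

theorem jdQ_isIntegral (d : Dv M) :
    IsIntegral ↥(Algebra.adjoin ℚ ({jFull M} : Set ↥(modularFunctionFieldFull M))) (jdQ M d) := by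
  haveI : NeZero d.1 := ⟨d.ne_zero⟩
  refine isIntegral_of_WH M (jdQ M d) (jdWH M d.1 d.2) (jdWH_mem_KRat M d.1 d.2)
    (fun γ hγ => smul_jdWH d.2 γ hγ) ?_
  rw [expInf_jdWH]
  congr 1
  exact (coeffMap_qExpand (algebraMap ℚ ℂ) d.1 jq).symm

theorem jdQ_mem_chartAlgFin (hℓM : ¬ ℓ ∣ M) (d : Dv M) : jdQ M d ∈ chartAlgFin M ℓ := by
  haveI : NeZero d.1 := ⟨d.ne_zero⟩
  refine mem_chartAlgFin_of_isIntegral M hℓM _ (jdQ_isIntegral M d) (fun A' hA' q => ?_)
  rw [mem_coeffRing_iff]
  exact fun n => sig_jd_coeff_mem M A' hA' q d.1 d.2 n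

/-! ### Integral polynomials in the generators -/

/-- the value of an integral polynomial at the generators `j_d`, in `F` -/
def evF (P : MvPolynomial (Dv M) ℤ) : ↥(modularFunctionFieldFull M) :=
  MvPolynomial.eval₂ (Int.castRingHom _) (jdQ M) P

theorem evF_mem (hℓM : ¬ ℓ ∣ M) (P : MvPolynomial (Dv M) ℤ) : evF M P ∈ chartAlgFin M ℓ := by
  unfold evF
  induction P using MvPolynomial.induction_on with
  | C a =>
    rw [MvPolynomial.eval₂_C]
    exact intCast_mem (chartAlgFin M ℓ) a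
  | add p q hp hq => rw [MvPolynomial.eval₂_add]; exact add_mem hp hq
  | mul_X p d hp =>
    rw [MvPolynomial.eval₂_mul, MvPolynomial.eval₂_X]
    exact mul_mem hp (jdQ_mem_chartAlgFin M hℓM d)

theorem key_C_comp_intCast (R : Type*) [CommRing R] :
    (HahnSeries.C : R →+* LaurentSeries R).comp (Int.castRingHom R) =
      Int.castRingHom (LaurentSeries R) := RingHom.ext_int _ _

theorem key_coeffMap_jbarGen {R S : Type} [Field R] [Field S] (f : R →+* S) (d : Dv M) :
    coeffMap f (jbarGen R M d) = jbarGen S M d := by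
  haveI : NeZero d.1 := ⟨d.ne_zero⟩
  unfold jbarGen
  rw [coeffMap_qExpand, coeffMap_jqModC]

/-- the `q`-expansion of `evF P` is the value of `P` at the series `j(q^d)` -/
theorem coe_evF (P : MvPolynomial (Dv M) ℤ) :
    ((evF M P : ↥(modularFunctionFieldFull M)) : LaurentSeries ℚ) =
      MvPolynomial.eval₂ (Int.castRingHom _) (jbarGen ℚ M) P := by
  have h := MvPolynomial.eval₂_comp_left (ffVal M) (Int.castRingHom _) (jdQ M) P
  have h1 : (ffVal M).comp (Int.castRingHom ↥(modularFunctionFieldFull M)) =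
      Int.castRingHom (LaurentSeries ℚ) := RingHom.ext_int _ _
  rw [h1] at h
  exact h

/-- the reduction mod `ℓ` of the `q`-expansion of `evF P` -/
theorem redMid_evF (hℓM : ¬ ℓ ∣ M) (P : MvPolynomial (Dv M) ℤ) :
    redMid ℓ M (inclFin M ℓ ⟨evF M P, evF_mem M hℓM P⟩) =
      MvPolynomial.eval₂ HahnSeries.C (jbarGen (ZMod ℓ) M)
        (MvPolynomial.map (Int.castRingHom (ZMod ℓ)) P) := by
  have hy : coeffMap (GaloisRep.ratLocalizedAt ℓ).subtype
      (MvPolynomial.eval₂ (Int.castRingHom _)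
        (fun d : Dv M =>
          haveI : NeZero d.1 := ⟨d.ne_zero⟩
          qExpand ↥(GaloisRep.ratLocalizedAt ℓ) d.1 (jqModC ↥(GaloisRep.ratLocalizedAt ℓ))) P) =
      (((inclFin M ℓ ⟨evF M P, evF_mem M hℓM P⟩ : ↥(chartAlgMid M ℓ)) :
        ↥(modularFunctionFieldFull M)) : LaurentSeries ℚ) := by
    rw [coe_chartIncl, coe_evF, MvPolynomial.eval₂_comp_left]
    congr 1
    · exact RingHom.ext_int _ _
    · funext d
      haveI : NeZero d.1 := ⟨d.ne_zero⟩
      show coeffMap _ (qExpand _ d.1 (jqModC _)) = jbarGen ℚ M d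
      rw [coeffMap_qExpand, coeffMap_jqModC]
      rfl
  rw [redMid_eq_of_lift ℓ M _ _ hy, MvPolynomial.eval₂_comp_left, MvPolynomial.eval₂_map]
  congr 1
  · exact RingHom.ext_int _ _
  · funext d
    haveI : NeZero d.1 := ⟨d.ne_zero⟩
    show coeffMap _ (qExpand _ d.1 (jqModC _)) = jbarGen (ZMod ℓ) M d
    rw [coeffMap_qExpand, coeffMap_jqModC]
    rfl

/-- the conjugate expansion of `evF P`, as an element of `ιC(A)((t))` -/
def evSig (q : SL(2, ℤ) ⧸ Gamma0 M) (P : MvPolynomial (Dv M) ℤ) : ↥(coeffRing (Aim A)) :=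
  MvPolynomial.eval₂ (Int.castRingHom _)
    (fun d => (⟨sig M q (jdQ M d), sig_jdQ_mem A M q d⟩ : ↥(coeffRing (Aim A)))) P

theorem coe_evSig (q : SL(2, ℤ) ⧸ Gamma0 M) (P : MvPolynomial (Dv M) ℤ) :
    ((evSig A M q P : ↥(coeffRing (Aim A))) : LaurentSeries ℂ) = sig M q (evF M P) := by
  have h1 := MvPolynomial.eval₂_comp_left (coeffRing (Aim A)).subtype (Int.castRingHom _)
    (fun d => (⟨sig M q (jdQ M d), sig_jdQ_mem A M q d⟩ : ↥(coeffRing (Aim A)))) P
  have h2 := MvPolynomial.eval₂_comp_left (sig M q) (Int.castRingHom _) (jdQ M) P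
  have e1 : (coeffRing (Aim A)).subtype.comp (Int.castRingHom ↥(coeffRing (Aim A))) =
      Int.castRingHom (LaurentSeries ℂ) := RingHom.ext_int _ _
  have e2 : (sig M q).comp (Int.castRingHom ↥(modularFunctionFieldFull M)) =
      Int.castRingHom (LaurentSeries ℂ) := RingHom.ext_int _ _
  rw [e1] at h1
  rw [e2] at h2
  exact h1.trans h2.symm

/-- the reduced conjugate expansion of an integral polynomial in the generators -/
theorem coeffRed_evSig (q : SL(2, ℤ) ⧸ Gamma0 M) (P : MvPolynomial (Dv M) ℤ) :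
    coeffRed (resIm A) (evSig A M q P) =
      MvPolynomial.aeval (psiRed A M q)
        (MvPolynomial.map (Int.castRingHom (IsLocalRing.ResidueField ↥A)) P) := by
  unfold evSig
  rw [MvPolynomial.eval₂_comp_left, MvPolynomial.aeval_def, MvPolynomial.eval₂_map]
  congr 1
  exact RingHom.ext_int _ _

/-- **I-KEY.** -/
theorem psiRed_key (hA : A.LiesOverPrime ℓ) (hℓM : ¬ ℓ ∣ M) (q : SL(2, ℤ) ⧸ Gamma0 M)
    (p : MvPolynomial (Dv M) (IsLocalRing.ResidueField ↥A))
    (hp : MvPolynomial.aeval (jbarGen (IsLocalRing.ResidueField ↥A) M) p = 0) :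
    MvPolynomial.aeval (psiRed A M q) p = 0 := by
  haveI := charP_residueField hA
  letI : Algebra (ZMod ℓ) (IsLocalRing.ResidueField ↥A) := ZMod.algebra _ ℓ
  refine ld_key (k₀ := ZMod ℓ) (jbarGen (ZMod ℓ) M)
    (MvPolynomial.aeval (psiRed A M q)).toRingHom ?_ p ?_
  · intro p₀ hp₀
    obtain ⟨P, rfl⟩ := MvPolynomial.map_surjective (Int.castRingHom (ZMod ℓ))
      (ZMod.intCast_surjective) p₀
    have hred : redMid ℓ M (inclFin M ℓ ⟨evF M P, evF_mem M hℓM P⟩) = 0 := by
      rw [redMid_evF M hℓM, hp₀]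
    have hmem : sig M q ((⟨evF M P, evF_mem M hℓM P⟩ : ↥(chartAlgFin M ℓ)) :
        ↥(modularFunctionFieldFull M)) ∈ coeffRing (Aim A) := by
      rw [← coe_evSig A M q P]
      exact (evSig A M q P).2
    have hkey := coeffRed_sig_eq_zero_of_redMid hℓM (Aim A) (ratLoc_mem_Aim hA) (resIm A)
      ⟨evF M P, evF_mem M hℓM P⟩ hred q hmem
    have e : (⟨sig M q ((⟨evF M P, evF_mem M hℓM P⟩ : ↥(chartAlgFin M ℓ)) :
        ↥(modularFunctionFieldFull M)), hmem⟩ : ↥(coeffRing (Aim A))) = evSig A M q P :=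
      Subtype.ext (coe_evSig A M q P).symm
    rw [e, coeffRed_evSig] at hkey
    show MvPolynomial.aeval (psiRed A M q) _ = 0
    rw [MvPolynomial.map_map]
    have e2 : (algebraMap (ZMod ℓ) (IsLocalRing.ResidueField ↥A)).comp
        (Int.castRingHom (ZMod ℓ)) = Int.castRingHom (IsLocalRing.ResidueField ↥A) :=
      RingHom.ext_int _ _
    rw [e2]
    exact hkey
  · rw [MvPolynomial.aeval_def] at hp
    have e1 : (fun d => coeffMap (algebraMap (ZMod ℓ) (IsLocalRing.ResidueField ↥A))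
        (jbarGen (ZMod ℓ) M d)) = jbarGen (IsLocalRing.ResidueField ↥A) M :=
      funext fun d => key_coeffMap_jbarGen M _ d
    rw [e1]
    have e2 : (HahnSeries.C : IsLocalRing.ResidueField ↥A →+* _) =
        algebraMap (IsLocalRing.ResidueField ↥A) (LaurentSeries (IsLocalRing.ResidueField ↥A)) := by
      ext c : 1
      rw [algebraMap_laurentSeries_eq_single]
      rfl
    rw [e2]
    exact hp

end Fermat.Agent.GM

end
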