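/-
Item 75a, GM-R, piece I-SYM (helper24): `psiRed_sym`.
The characteristic polynomial `∏_q (Y - Ψ_q p)` of a polynomial `p` in the generators `j̄_d`
(coefficients in `k`, the residue field of `A`) has coefficients in `k[j̄]`.

Proof: lift `p` to `A[X_d]`, `y := p̃(j_d) ∈ FF M` (function field over `ℚ̄`); S24lib `sym_embF`
gives the characteristic polynomial over `ℚ̄(j)`; its coefficients are integral over `ℚ̄[j]`, hence
polynomials `G_k(j)` (S28lib `mem_range_aeval_of_isIntegralElem`), with coefficients in `A` by the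
Gauss lemma (S28lib `gauss_coeff_mem`); reduce.
No sorry.
-/
import Mathlib
import Fermat.Agent.GM.RedInstKey
import Fermat.Agent.S24lib.Sym

set_option autoImplicit false

noncomputable section

namespace Fermat.Agent.GM

open AlgebraicCurve ModularCurve ModularCurve.IgusaScheme IntermediateField CongruenceSubgroup
open Fermat.Agent.S24lib Fermat.Agent.S28lib
open scoped MatrixGroups

variable (A : ValuationSubring (AlgebraicClosure ℚ)) (M : ℕ) [NeZero M] {ℓ : ℕ} [Fact ℓ.Prime]

/-! ### The conjugate expansions over `ℚ̄` -/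

/-- the conjugate expansion of `FF M` attached to the coset `q` -/
def sigK (q : SL(2, ℤ) ⧸ Gamma0 M) : FF M →+* LaurentSeries ℂ :=
  embF M (twist M (expInf M) q.out) (twist_injective M (expInf_injective M) _)

theorem sigK_injective (q : SL(2, ℤ) ⧸ Gamma0 M) : Function.Injective (sigK M q) :=
  (sigK M q).injective

theorem sigK_const (q : SL(2, ℤ) ⧸ Gamma0 M) (c : Kbar) :
    sigK M q (algebraMap Kbar (FF M) c) = HahnSeries.C (ιC c) := by
  unfold sigK
  rw [embF_const, twist_apply, smul_whC, expInf_whC]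

theorem sigK_jF (q : SL(2, ℤ) ⧸ Gamma0 M) : sigK M q (jF M) = Jser M := by
  unfold sigK
  rw [embF_jF, twist_apply, smul_jWH, expInf_jWH]
  rfl

/-- the generators over `ℚ̄` -/
def jdK (d : Dv M) : FF M :=
  haveI : NeZero d.1 := ⟨d.ne_zero⟩
  jdF M d.1 d.2

theorem toFF_jdQ (d : Dv M) : toFF M (jdQ M d) = jdK M d := rfl

theorem sigK_jdK (q : SL(2, ℤ) ⧸ Gamma0 M) (d : Dv M) :
    sigK M q (jdK M d) = sig M q (jdQ M d) := rfl

/-- `ℚ̄[X] → FF M`, `X ↦ j` -/
def phiK : Polynomial Kbar →+* FF M := (Polynomial.aeval (R := Kbar) (jF M)).toRingHom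

/-- `ℚ̄[X] → ℂ((t))`, `X ↦ J` -/
def evK : Polynomial Kbar →+* LaurentSeries ℂ :=
  Polynomial.eval₂RingHom ((HahnSeries.C : ℂ →+* LaurentSeries ℂ).comp ιC) (Jser M)

theorem sigK_comp_phiK (q : SL(2, ℤ) ⧸ Gamma0 M) : (sigK M q).comp (phiK M) = evK M := by
  apply Polynomial.ringHom_ext
  · intro c
    simp only [RingHom.comp_apply, phiK, evK, AlgHom.toRingHom_eq_coe, RingHom.coe_coe,
      Polynomial.aeval_C, Polynomial.coe_eval₂RingHom, Polynomial.eval₂_C]
    exact sigK_const M q c
  · simp only [RingHom.comp_apply, phiK, evK, AlgHom.toRingHom_eq_coe, RingHom.coe_coe,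
      Polynomial.aeval_X, Polynomial.coe_eval₂RingHom, Polynomial.eval₂_X]
    exact sigK_jF M q

theorem evK_apply (G : Polynomial Kbar) :
    evK M G = Polynomial.eval₂ HahnSeries.C (Jser M) (G.map ιC) := by
  unfold evK
  rw [Polynomial.coe_eval₂RingHom, Polynomial.eval₂_map]

theorem evK_injective : Function.Injective (evK M) := by
  rw [injective_iff_map_eq_zero]
  intro G hG
  rw [evK_apply] at hG
  have h := eval₂_eq_zero_imp (Jser M) M (Nat.pos_of_ne_zero (NeZero.ne M))
    Jser_pow_lead Jser_pow_low (G.map ιC) hG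
  exact (Polynomial.map_eq_zero_iff ιC_injective).mp h

theorem phiK_injective : Function.Injective (phiK M) := by
  intro G G' h
  apply evK_injective M
  rw [← sigK_comp_phiK M ((1 : SL(2, ℤ)) : SL(2, ℤ) ⧸ Gamma0 M), RingHom.comp_apply,
    RingHom.comp_apply, h]

/-! ### Integrality over `ℚ̄[j]` -/

theorem isIntegralElem_of_comp {R S T : Type*} [CommRing R] [CommRing S] [CommRing T]
    (f : S →+* T) (g : R →+* S) {x : T} (h : (f.comp g).IsIntegralElem x) :
    f.IsIntegralElem x := by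
  obtain ⟨p, hp, hpx⟩ := h
  exact ⟨p.map g, hp.map g, by rw [Polynomial.eval₂_map]; exact hpx⟩

theorem toFF_comp_phiQ :
    (toFF M).comp (phiQ M) = (phiK M).comp (Polynomial.mapRingHom (algebraMap ℚ Kbar)) := by
  apply Polynomial.ringHom_ext'
  · exact RingHom.ext_rat _ _
  · simp only [RingHom.comp_apply, phiK, phiQ, AlgHom.toRingHom_eq_coe, RingHom.coe_coe,
      Polynomial.aeval_X, Polynomial.coe_mapRingHom, Polynomial.map_X]
    rfl

theorem jdK_isIntegralElem (d : Dv M) : (phiK M).IsIntegralElem (jdK M d) := by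
  have h1 : (phiQ M).IsIntegralElem (jdQ M d) :=
    (isIntegral_adjoin_rat_iff _).mp (jdQ_isIntegral M d)
  have h2 := isIntegralElem_map_of (toFF M) h1
  rw [toFF_comp_phiQ] at h2
  exact isIntegralElem_of_comp _ _ h2

/-- the value of a polynomial with coefficients in `A` at the generators, in `FF M` -/
def evFK (P : MvPolynomial (Dv M) ↥A) : FF M :=
  MvPolynomial.eval₂ ((algebraMap Kbar (FF M)).comp A.subtype) (jdK M) P

theorem evFK_isIntegralElem (P : MvPolynomial (Dv M) ↥A) :
    (phiK M).IsIntegralElem (evFK A M P) := by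
  rw [← mem_intElemSubring]
  unfold evFK
  induction P using MvPolynomial.induction_on with
  | C a =>
    rw [MvPolynomial.eval₂_C, mem_intElemSubring]
    have h := (phiK M).isIntegralElem_map (x := Polynomial.C (a : Kbar))
    have e : phiK M (Polynomial.C (a : Kbar)) = algebraMap Kbar (FF M) (a : Kbar) := by
      simp [phiK]
    rw [e] at h
    exact h
  | add p q hp hq => rw [MvPolynomial.eval₂_add]; exact add_mem hp hq
  | mul_X p d hp =>
    rw [MvPolynomial.eval₂_mul, MvPolynomial.eval₂_X]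
    exact mul_mem hp ((mem_intElemSubring _ _).mpr (jdK_isIntegralElem M d))

/-! ### Expansions with coefficients in `ιC(A)` -/

theorem coeffRed_C {𝕂 k' : Type*} [Field 𝕂] [CommRing k'] (B : Subring 𝕂) (r : ↥B →+* k')
    (a : 𝕂) (ha : a ∈ B) (h : (HahnSeries.C a : LaurentSeries 𝕂) ∈ coeffRing B) :
    coeffRed r ⟨HahnSeries.C a, h⟩ = HahnSeries.C (r ⟨a, ha⟩) := by
  ext n
  rw [coeffRed_coeff r _ n (mem_coeffRing_iff.mp h n)]
  by_cases hn : n = 0
  · subst hn
    simp only [HahnSeries.C_apply, HahnSeries.coeff_single_same]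
  · simp only [HahnSeries.C_apply, HahnSeries.coeff_single_of_ne hn]
    exact map_zero r

/-- constants of `A` as elements of `ιC(A)((t))` -/
def constA : ↥A →+* ↥(coeffRing (Aim A)) :=
  (((HahnSeries.C : ℂ →+* LaurentSeries ℂ).comp ιC).comp A.subtype).codRestrict
    (coeffRing (Aim A)) (fun a => C_mem_coeffRing (Aim A) (ιC_mem_Aim A a.2))

theorem coeffRed_constA (a : ↥A) :
    coeffRed (resIm A) (constA A a) = HahnSeries.C (IsLocalRing.residue ↥A a) := by
  have h := coeffRed_C (Aim A) (resIm A) (ιC (a : Kbar)) (ιC_mem_Aim A a.2)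
    (C_mem_coeffRing (Aim A) (ιC_mem_Aim A a.2))
  rw [resIm_ιC] at h
  exact h

/-- the conjugate expansion of `evFK P`, as an element of `ιC(A)((t))` -/
def thetaSig (q : SL(2, ℤ) ⧸ Gamma0 M) (P : MvPolynomial (Dv M) ↥A) : ↥(coeffRing (Aim A)) :=
  MvPolynomial.eval₂ (constA A)
    (fun d => (⟨sig M q (jdQ M d), sig_jdQ_mem A M q d⟩ : ↥(coeffRing (Aim A)))) P

theorem coe_thetaSig (q : SL(2, ℤ) ⧸ Gamma0 M) (P : MvPolynomial (Dv M) ↥A) :
    ((thetaSig A M q P : ↥(coeffRing (Aim A))) : LaurentSeries ℂ) = sigK M q (evFK A M P) := by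
  have h1 := MvPolynomial.eval₂_comp_left (coeffRing (Aim A)).subtype (constA A)
    (fun d => (⟨sig M q (jdQ M d), sig_jdQ_mem A M q d⟩ : ↥(coeffRing (Aim A)))) P
  have h2 := MvPolynomial.eval₂_comp_left (sigK M q)
    ((algebraMap Kbar (FF M)).comp A.subtype) (jdK M) P
  have e : (sigK M q).comp ((algebraMap Kbar (FF M)).comp A.subtype) =
      (coeffRing (Aim A)).subtype.comp (constA A) := by
    ext a
    simp only [RingHom.comp_apply]
    rw [sigK_const]
    rfl
  rw [e] at h2
  exact h1.trans h2.symm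

theorem coeffRed_thetaSig (q : SL(2, ℤ) ⧸ Gamma0 M) (P : MvPolynomial (Dv M) ↥A) :
    coeffRed (resIm A) (thetaSig A M q P) =
      MvPolynomial.aeval (psiRed A M q) (MvPolynomial.map (IsLocalRing.residue ↥A) P) := by
  unfold thetaSig
  rw [MvPolynomial.eval₂_comp_left, MvPolynomial.aeval_def, MvPolynomial.eval₂_map]
  congr 1
  ext a : 1
  rw [RingHom.comp_apply, RingHom.comp_apply, coeffRed_constA, algebraMap_laurentSeries_eq_single]
  rfl

/-! ### Polynomials in `J` with coefficients in `A` -/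

/-- a polynomial over `ℚ̄` with coefficients in `A` comes from `A[X]` -/
theorem exists_map_subtype_eq (G : Polynomial Kbar) (h : ∀ i, G.coeff i ∈ A) :
    ∃ G' : Polynomial ↥A, G'.map A.subtype = G := by
  refine ⟨∑ n ∈ Finset.range (G.natDegree + 1),
    Polynomial.monomial n (⟨G.coeff n, h n⟩ : ↥A), ?_⟩
  ext n
  rw [Polynomial.coeff_map, Polynomial.finset_sum_coeff]
  simp only [Polynomial.coeff_monomial]
  rw [Finset.sum_ite_eq' (Finset.range (G.natDegree + 1)) n]
  split_ifs with hn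
  · rfl
  · have : G.natDegree < n := by
      rw [Finset.mem_range] at hn; omega
    rw [Polynomial.coeff_eq_zero_of_natDegree_lt this]
    exact map_zero _

theorem evK_mem (G : Polynomial ↥A) : evK M (G.map A.subtype) ∈ coeffRing (Aim A) := by
  rw [evK_apply, Polynomial.eval₂_eq_sum_range]
  refine Subring.sum_mem _ fun i _ => ?_
  refine Subring.mul_mem _ ?_ (Subring.pow_mem _ (Jser_mem_coeffRing (Aim A)) i)
  rw [Polynomial.coeff_map, Polynomial.coeff_map]
  exact C_mem_coeffRing (Aim A) (ιC_mem_Aim A (G.coeff i).2)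

/-- `A[X] → ιC(A)((t))`, `X ↦ J` -/
def ThetaA : Polynomial ↥A →+* ↥(coeffRing (Aim A)) :=
  ((evK M).comp (Polynomial.mapRingHom A.subtype)).codRestrict (coeffRing (Aim A))
    (fun G => evK_mem A M G)

theorem coe_ThetaA (G : Polynomial ↥A) :
    ((ThetaA A M G : ↥(coeffRing (Aim A))) : LaurentSeries ℂ) = evK M (G.map A.subtype) := rfl

/-- the reduction of `J` is `J̄` -/
theorem coeffRed_Jser (h : Jser M ∈ coeffRing (Aim A)) :
    coeffRed (resIm A) ⟨Jser M, h⟩ = JbarM (IsLocalRing.ResidueField ↥A) M := by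
  ext n
  rw [coeffRed_coeff (resIm A) _ n (mem_coeffRing_iff.mp h n)]
  have hJ : Jser M = qExpand ℂ M (jqModC ℂ) := by
    unfold Jser
    rw [show jq = jqModC ℚ from rfl, coeffMap_jqModC]
  unfold JbarM
  by_cases hn : (M : ℤ) ∣ n
  · obtain ⟨m, rfl⟩ := hn
    rw [qExpand_coeff_mul, coeff_jqModC_eq_intCast]
    have e : (⟨(Jser M).coeff ((M : ℤ) * m), mem_coeffRing_iff.mp h _⟩ : ↥(Aim A)) =
        (((jqModC ℤ).coeff m : ℤ) : ↥(Aim A)) := by
      apply Subtype.ext
      show (Jser M).coeff ((M : ℤ) * m) = (((((jqModC ℤ).coeff m : ℤ) : ↥(Aim A))) : ℂ)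
      rw [hJ, qExpand_coeff_mul, coeff_jqModC_eq_intCast]
      simp
    rw [e, map_intCast]
  · rw [qExpand_coeff_of_not_dvd M _ hn]
    have e : (⟨(Jser M).coeff n, mem_coeffRing_iff.mp h _⟩ : ↥(Aim A)) = 0 := by
      apply Subtype.ext
      show (Jser M).coeff n = 0
      rw [hJ, qExpand_coeff_of_not_dvd M _ hn]
    rw [e, map_zero]

theorem coeffRed_comp_ThetaA :
    (coeffRed (resIm A)).comp (ThetaA A M) =
      (Polynomial.eval₂RingHom HahnSeries.C (JbarM (IsLocalRing.ResidueField ↥A) M)).comp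
        (Polynomial.mapRingHom (IsLocalRing.residue ↥A)) := by
  apply Polynomial.ringHom_ext
  · intro a
    simp only [RingHom.comp_apply, Polynomial.coe_mapRingHom, Polynomial.map_C,
      Polynomial.coe_eval₂RingHom, Polynomial.eval₂_C]
    have e : ThetaA A M (Polynomial.C a) = constA A a := by
      apply Subtype.ext
      rw [coe_ThetaA, Polynomial.map_C, evK_apply, Polynomial.map_C, Polynomial.eval₂_C]
      rfl
    rw [e, coeffRed_constA]
  · simp only [RingHom.comp_apply, Polynomial.coe_mapRingHom, Polynomial.map_X,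
      Polynomial.coe_eval₂RingHom, Polynomial.eval₂_X]
    have e : ThetaA A M Polynomial.X = ⟨Jser M, Jser_mem_coeffRing (Aim A)⟩ := by
      apply Subtype.ext
      rw [coe_ThetaA, Polynomial.map_X, evK_apply, Polynomial.map_X, Polynomial.eval₂_X]
    rw [e, coeffRed_Jser]

/-! ### The theorem -/

/-- **I-SYM.** -/
theorem psiRed_sym (hA : A.LiesOverPrime ℓ)
    (p : MvPolynomial (Dv M) (IsLocalRing.ResidueField ↥A)) :
    ∃ Q : Polynomial (Polynomial (IsLocalRing.ResidueField ↥A)), Q.Monic ∧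
      Q.map (Polynomial.eval₂RingHom HahnSeries.C (JbarM (IsLocalRing.ResidueField ↥A) M)) =
        ∏ q : SL(2, ℤ) ⧸ Gamma0 M,
          (Polynomial.X - Polynomial.C (MvPolynomial.aeval (psiRed A M q) p)) := by
  classical
  obtain ⟨P, rfl⟩ := MvPolynomial.map_surjective (IsLocalRing.residue ↥A)
    IsLocalRing.residue_surjective p
  set y : FF M := evFK A M P with hy
  obtain ⟨P₁, hP₁c, hP₁⟩ := sym_embF M (expInf_injective M) y
  set q₁ : SL(2, ℤ) ⧸ Gamma0 M := ((1 : SL(2, ℤ)) : SL(2, ℤ) ⧸ Gamma0 M) with hq₁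
  have hP₁' : P₁.map (sigK M q₁) =
      ∏ q : SL(2, ℤ) ⧸ Gamma0 M, (Polynomial.X - Polynomial.C (sigK M q y)) := hP₁ q₁.out
  -- the product over `ιC(A)((t))`
  set PP : Polynomial ↥(coeffRing (Aim A)) :=
    ∏ q : SL(2, ℤ) ⧸ Gamma0 M, (Polynomial.X - Polynomial.C (thetaSig A M q P)) with hPP
  have hPPmap : PP.map (coeffRing (Aim A)).subtype =
      ∏ q : SL(2, ℤ) ⧸ Gamma0 M, (Polynomial.X - Polynomial.C (sigK M q y)) := by
    rw [hPP, Polynomial.map_prod]
    refine Finset.prod_congr rfl fun q _ => ?_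
    rw [Polynomial.map_sub, Polynomial.map_X, Polynomial.map_C]
    congr 2
    exact coe_thetaSig A M q P
  have hPPmonic : PP.Monic := Polynomial.monic_prod_of_monic _ _
    (fun q _ => Polynomial.monic_X_sub_C _)
  have hlift : PP ∈ Polynomial.lifts (ThetaA A M) := by
    rw [Polynomial.lifts_iff_coeff_lifts]
    intro k
    have hσc : sigK M q₁ (P₁.coeff k) = ((PP.coeff k : ↥(coeffRing (Aim A))) : LaurentSeries ℂ) := by
      rw [← Polynomial.coeff_map, hP₁', ← hPPmap, Polynomial.coeff_map]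
      rfl
    have h1 : (evK M).IsIntegralElem (sigK M q₁ (P₁.coeff k)) := by
      rw [← Polynomial.coeff_map, hP₁']
      refine isIntegralElem_coeff_prod _ Finset.univ _ (fun q _ => ?_) k
      have := isIntegralElem_map_of (sigK M q) (evFK_isIntegralElem A M P)
      rwa [sigK_comp_phiK] at this
    have h2 : (phiK M).IsIntegralElem (P₁.coeff k) := by
      refine isIntegralElem_of_map (sigK M q₁) (sigK_injective M q₁) ?_
      rw [sigK_comp_phiK]
      exact h1
    obtain ⟨G, hG⟩ := mem_range_aeval_of_isIntegralElem (jF M) (phiK_injective M)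
      (P₁.coeff k) (hP₁c k) h2
    have hG' : phiK M G = P₁.coeff k := hG
    have hev : evK M G = ((PP.coeff k : ↥(coeffRing (Aim A))) : LaurentSeries ℂ) := by
      rw [← hσc, ← hG', ← sigK_comp_phiK M q₁]
      rfl
    have h3 : ∀ m : ℤ,
        (Polynomial.eval₂ HahnSeries.C (Jser M) (G.map ιC)).coeff m ∈ Aim A := by
      intro m
      rw [← evK_apply, hev]
      exact mem_coeffRing_iff.mp (PP.coeff k).2 m
    have h4 := gauss_coeff_mem (Aim A) (Jser M) M (Nat.pos_of_ne_zero (NeZero.ne M))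
      (Jser_pow_coeff_mem (Aim A)) Jser_pow_lead Jser_pow_low
      ((G.map ιC).natDegree + 1) (G.map ιC) (Nat.lt_succ_self _) h3
    have h5 : ∀ i, G.coeff i ∈ A := by
      intro i
      have := h4 i
      rw [Polynomial.coeff_map] at this
      obtain ⟨x, hx, hxe⟩ := this
      rw [← ιC_injective hxe]
      exact hx
    obtain ⟨G', hG'e⟩ := exists_map_subtype_eq A G h5
    refine ⟨G', Subtype.ext ?_⟩
    rw [coe_ThetaA, hG'e, hev]
  obtain ⟨P_A, hP_A, -, hmonic⟩ := Polynomial.lifts_and_natDegree_eq_and_monic hlift hPPmonic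
  refine ⟨P_A.map (Polynomial.mapRingHom (IsLocalRing.residue ↥A)), hmonic.map _, ?_⟩
  rw [Polynomial.map_map, ← coeffRed_comp_ThetaA, ← Polynomial.map_map, hP_A, hPP,
    Polynomial.map_prod]
  refine Finset.prod_congr rfl fun q _ => ?_
  rw [Polynomial.map_sub, Polynomial.map_X, Polynomial.map_C, coeffRed_thetaSig]

end Fermat.Agent.GM

end
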