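/-
Item 75a, part (G_M), piece GM-R/I-TWIST (helper27; GM-R owner helper4): the conjugate expansions
at `T • q` are the rotations `t ↦ ζ t` of those at `q`, `ζ` the reduction of `e^{-2πi/M}`,
a primitive `M`-th root of unity of the residue field (`ℓ ∤ M`).  No sorry.
-/
import Mathlib
import Fermat.Agent.GM.RedInstDefs
import Fermat.Agent.GM.RedInstRoots
import Fermat.Agent.S24lib.FibersInf

set_option autoImplicit false
set_option synthInstance.maxHeartbeats 400000

noncomputable section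

namespace Fermat.Agent.GM

open AlgebraicCurve ModularCurve IntermediateField CongruenceSubgroup
open Fermat.Agent.S24lib Fermat.Agent.S28lib
open scoped MatrixGroups

/-- integer powers of a root of unity, reduced to natural powers -/
theorem tw_zpow_eq_pow_emod {K : Type*} [Field K] (x : K) (M : ℕ) (hM : 0 < M)
    (hx : x ^ M = 1) (n : ℤ) : x ^ n = x ^ (n % (M : ℤ)).toNat := by
  have hx0 : x ≠ 0 := by
    rintro rfl
    rw [zero_pow hM.ne'] at hx
    exact zero_ne_one hx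
  have hMz : (M : ℤ) ≠ 0 := by exact_mod_cast hM.ne'
  have hnn : 0 ≤ n % (M : ℤ) := Int.emod_nonneg n hMz
  have h1 : n = (M : ℤ) * (n / (M : ℤ)) + n % (M : ℤ) := (Int.mul_ediv_add_emod n M).symm
  have h2 : ((n % (M : ℤ)).toNat : ℤ) = n % (M : ℤ) := Int.toNat_of_nonneg hnn
  conv_lhs => rw [h1]
  rw [zpow_add₀ hx0, zpow_mul, zpow_natCast, hx, one_zpow, one_mul, ← h2, zpow_natCast, h2]

section Sig

variable (M : ℕ) [NeZero M]

/-- the conjugate expansion of a generator, in terms of the action on `WH M` -/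
theorem tw_sig_jdQ (q : SL(2, ℤ) ⧸ Gamma0 M) (g : SL(2, ℤ))
    (hg : (QuotientGroup.mk g : SL(2, ℤ) ⧸ Gamma0 M) = q) (d : Dv M) :
    haveI : NeZero d.1 := ⟨d.ne_zero⟩
    sig M q (jdQ M d) = expInf M (g • jdWH M d.1 d.2) := by
  haveI : NeZero d.1 := ⟨d.ne_zero⟩
  have h := σInf_eq_of_mk M q g hg
  show σInf M q (jdF M d.1 d.2) = _
  rw [h, embF_jdF, twist_apply]

/-- the coefficients of the conjugate expansion at `T • q` -/
theorem tw_sig_T_smul_coeff (q : SL(2, ℤ) ⧸ Gamma0 M) (d : Dv M) (n : ℤ) :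
    (sig M (ModularGroup.T • q) (jdQ M d)).coeff n =
      Complex.exp (-2 * Real.pi * Complex.I * n / M) * (sig M q (jdQ M d)).coeff n := by
  haveI : NeZero d.1 := ⟨d.ne_zero⟩
  have hmk : (QuotientGroup.mk (ModularGroup.T * q.out) : SL(2, ℤ) ⧸ Gamma0 M)
      = ModularGroup.T • q := by
    conv_rhs => rw [← QuotientGroup.out_eq' q]
    rfl
  rw [tw_sig_jdQ M (ModularGroup.T • q) (ModularGroup.T * q.out) hmk d,
    tw_sig_jdQ M q q.out (QuotientGroup.out_eq' q) d, mul_smul, coeff_expInf_T_smul]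

/-- the rotation factor as a natural power of `e^{-2πi/M}` -/
theorem tw_exp_eq_pow (n : ℤ) :
    Complex.exp (-2 * Real.pi * Complex.I * n / M)
      = Complex.exp (-2 * Real.pi * Complex.I / M) ^ (n % (M : ℤ)).toNat := by
  have hM : 0 < M := Nat.pos_of_ne_zero (NeZero.ne M)
  have hw : Complex.exp (-2 * Real.pi * Complex.I / M) ^ M = 1 := by
    rw [← Complex.exp_nat_mul]
    have hMC : (M : ℂ) ≠ 0 := by exact_mod_cast hM.ne'
    have e : (M : ℂ) * (-2 * Real.pi * Complex.I / M) = -(2 * Real.pi * Complex.I) := by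
      field_simp
    rw [e, Complex.exp_neg, Complex.exp_two_pi_mul_I, inv_one]
  rw [← tw_zpow_eq_pow_emod _ M hM hw n, ← Complex.exp_int_mul]
  congr 1
  ring

theorem tw_exp_pow_eq_one :
    Complex.exp (-2 * Real.pi * Complex.I / M) ^ M = 1 := by
  have hM : 0 < M := Nat.pos_of_ne_zero (NeZero.ne M)
  rw [← Complex.exp_nat_mul]
  have hMC : (M : ℂ) ≠ 0 := by exact_mod_cast hM.ne'
  have e : (M : ℂ) * (-2 * Real.pi * Complex.I / M) = -(2 * Real.pi * Complex.I) := by
    field_simp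
  rw [e, Complex.exp_neg, Complex.exp_two_pi_mul_I, inv_one]

theorem tw_isPrimitiveRoot_exp :
    IsPrimitiveRoot (Complex.exp (-2 * Real.pi * Complex.I / M)) M := by
  have h := (Complex.isPrimitiveRoot_exp M (NeZero.ne M)).inv
  have e : (Complex.exp (2 * Real.pi * Complex.I / M))⁻¹
      = Complex.exp (-2 * Real.pi * Complex.I / M) := by
    rw [← Complex.exp_neg]
    congr 1
    ring
  rwa [e] at h

end Sig

section Inst

variable (A : ValuationSubring (AlgebraicClosure ℚ)) (M : ℕ) [NeZero M] {ℓ : ℕ} [Fact ℓ.Prime]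

/-- `e^{-2πi/M}` as an element of `ιC(A)` -/
def twZeta : ↥(Aim A) :=
  ⟨Complex.exp (-2 * Real.pi * Complex.I / M),
    root_mem_Aim A M (Nat.pos_of_ne_zero (NeZero.ne M)) _ (tw_exp_pow_eq_one M)⟩

theorem coe_twZeta : ((twZeta A M : ↥(Aim A)) : ℂ) = Complex.exp (-2 * Real.pi * Complex.I / M) :=
  rfl

theorem isPrimitiveRoot_twZeta : IsPrimitiveRoot (twZeta A M) M := by
  have h : IsPrimitiveRoot ((Aim A).subtype (twZeta A M)) M := tw_isPrimitiveRoot_exp M
  exact IsPrimitiveRoot.of_map_of_injective h Subtype.val_injective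

/-- **I-TWIST** -/
theorem psiRed_twist (hA : A.LiesOverPrime ℓ) (hℓM : ¬ ℓ ∣ M) :
    ∃ ζ : IsLocalRing.ResidueField ↥A, IsPrimitiveRoot ζ M ∧
      ∀ (q : SL(2, ℤ) ⧸ Gamma0 M) (d : Dv M) (n : ℤ),
        (psiRed A M (ModularGroup.T • q) d).coeff n = ζ ^ n * (psiRed A M q d).coeff n := by
  have hM : 0 < M := Nat.pos_of_ne_zero (NeZero.ne M)
  have hprim := isPrimitiveRoot_resIm hA hM hℓM (twZeta A M) (isPrimitiveRoot_twZeta A M)
  refine ⟨resIm A (twZeta A M), hprim, fun q d n => ?_⟩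
  have hc1 := mem_coeffRing_iff.1 (sig_jdQ_mem A M (ModularGroup.T • q) d) n
  have hc2 := mem_coeffRing_iff.1 (sig_jdQ_mem A M q d) n
  rw [psiRed_coeff A M _ d n hc1, psiRed_coeff A M q d n hc2,
    tw_zpow_eq_pow_emod _ M hM hprim.pow_eq_one n, ← map_pow, ← map_mul]
  congr 1
  apply Subtype.ext
  show (sig M (ModularGroup.T • q) (jdQ M d)).coeff n
    = ((twZeta A M : ↥(Aim A)) : ℂ) ^ (n % (M : ℤ)).toNat * (sig M q (jdQ M d)).coeff n
  rw [tw_sig_T_smul_coeff, tw_exp_eq_pow, coe_twZeta]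

end Inst

end Fermat.Agent.GM

end
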