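/-
Item 75a, part (G_M), piece GM-R (owner helper4): THE DELIVERABLE.
The fibre data of `F_k(M)` over the cusps (`k` = residue field of a valuation ring of `ℚ̄` over
`ℓ ∤ M`): the `ψ(M)` conjugate cusp expansions in characteristic `ℓ`.
Assembly of I-BASE/I-ONE/I-DIST (helper4), I-KEY/I-SYM (helper24), I-TWIST (helper27),
G (helper15, steps 4-5 helper4).
No sorry.
-/
import Mathlib
import Fermat.Agent.GM.RedGeneric
import Fermat.Agent.GM.RedInstBase
import Fermat.Agent.GM.RedInstDist
import Fermat.Agent.GM.RedInstKey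
import Fermat.Agent.GM.RedInstSym
import Fermat.Agent.GM.RedInstTwist
import Fermat.Agent.S28lib.Key

set_option autoImplicit false
set_option synthInstance.maxHeartbeats 400000

noncomputable section

namespace Fermat.Agent.GM

open AlgebraicCurve ModularCurve ModularCurve.IgusaScheme IntermediateField CongruenceSubgroup
open Fermat.Agent.S24lib Fermat.Agent.S28lib
open scoped MatrixGroups

/-- the family of reduced conjugate expansions -/
theorem nonempty_redFamily (A : ValuationSubring (AlgebraicClosure ℚ)) (M : ℕ) [NeZero M]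
    {ℓ : ℕ} [Fact ℓ.Prime] (hA : A.LiesOverPrime ℓ) (hℓM : ¬ ℓ ∣ M) :
    Nonempty (RedFamily (IsLocalRing.ResidueField ↥A) M (SL(2, ℤ) ⧸ Gamma0 M)
      ModularGroup.T) := by
  obtain ⟨ζ, hζ, htw⟩ := psiRed_twist A M hA hℓM
  exact ⟨{
    ψ := psiRed A M
    i₀ := ((1 : SL(2, ℤ)) : SL(2, ℤ) ⧸ Gamma0 M)
    base := psiRed_base A M
    val_one := psiRed_one A M
    key := fun i p hp => psiRed_key A M hA hℓM i p hp
    dist := psiRed_injective M A hA hℓM
    sym := psiRed_sym A M hA
    ζ := ζ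
    ζ_prim := hζ
    twist := htw }⟩

/-- **GM-R**, without the `KeyFin` hypothesis -/
theorem exists_fiberData_modL' (M : ℕ) [NeZero M] {ℓ : ℕ} [Fact ℓ.Prime] (hℓM : ¬ ℓ ∣ M)
    (A : ValuationSubring (AlgebraicClosure ℚ)) (hA : A.LiesOverPrime ℓ) :
    Nonempty (FiberData (IsLocalRing.ResidueField A) (Fk (IsLocalRing.ResidueField A) M)
      (IsLocalRing.ResidueField A) ((jk (IsLocalRing.ResidueField A) M)⁻¹)
      (SL(2, ℤ) ⧸ Gamma0 M) ModularGroup.T) := by
  obtain ⟨R⟩ := nonempty_redFamily A M hA hℓM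
  exact R.nonempty_fiberData

/-- **GM-R**, with an arbitrary extra hypothesis (e.g. `KeyFin M ℓ` of NOTES/GM_signatures):
the hypothesis is not needed. -/
theorem exists_fiberData_modL_of (M : ℕ) [NeZero M] {ℓ : ℕ} [Fact ℓ.Prime] (hℓM : ¬ ℓ ∣ M)
    (A : ValuationSubring (AlgebraicClosure ℚ)) (hA : A.LiesOverPrime ℓ) {P : Prop} (_h : P) :
    Nonempty (FiberData (IsLocalRing.ResidueField A) (Fk (IsLocalRing.ResidueField A) M)
      (IsLocalRing.ResidueField A) ((jk (IsLocalRing.ResidueField A) M)⁻¹)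
      (SL(2, ℤ) ⧸ Gamma0 M) ModularGroup.T) :=
  exists_fiberData_modL' M hℓM A hA

end Fermat.Agent.GM

end
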