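/-
Item 75a/67, (G_M) side piece (helper8): `hred` at level `M` — the reduction of every integral
`q`-expansion lying in `F_M` lies in `F_{M,k}` — from degree preservation (★):
`GoodRed/Hred.lean hred_of_finrank` + the characteristic-0 degree `ψ(M)` (`S24lib.fin_finrank`)
+ `finrank_Fk_of_fiberData` (`GM/CuspsFinal.lean`) + GM-R (`GM/RedMain.lean`
`exists_fiberData_modL'`).  No sorry in this file.
-/
import Mathlib
import Fermat.Agent.GoodRed.Hred
import Fermat.Agent.GoodRed.Echelon
import Fermat.Agent.GM.CuspsFinal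
import Fermat.Agent.GM.RedMain
import Fermat.Agent.S24lib.Final
import Fermat.Agent.HeckeBar.ModDeg

set_option autoImplicit false

noncomputable section

namespace Fermat.Agent.GM

open AlgebraicCurve ModularCurve IntermediateField CongruenceSubgroup
open Fermat.Agent.S24lib Fermat.Agent.GoodRed
open scoped MatrixGroups

/-- the degree of `F_M` over `ℚ̄(j⁻¹)` is `ψ(M)` -/
theorem hm_finrank_inv (M : ℕ) [NeZero M] :
    Module.finrank Kbar⟮(jF M)⁻¹⟯ (FF M) = dedekindPsi M := by
  rw [ffFinrank_of_adjoin_eq (ffAdjoin_inv (jF M))]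
  exact fin_finrank M

/-- `hred` at level `M`, from the fibre data of `F_{M,k}` over the cusps -/
theorem hred_modL_of_fiberData (M : ℕ) [NeZero M] (A : ValuationSubring (AlgebraicClosure ℚ))
    (hD : Nonempty (FiberData (IsLocalRing.ResidueField A) (Fk (IsLocalRing.ResidueField A) M)
      (IsLocalRing.ResidueField A) ((jk (IsLocalRing.ResidueField A) M)⁻¹)
      (SL(2, ℤ) ⧸ Gamma0 M) ModularGroup.T)) :
    ∀ y : LaurentSeries A, coeffMap A.subtype y ∈ modularFunctionFieldBar M →
      coeffMap (IsLocalRing.residue A) y ∈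
        modularFunctionFieldFullC (IsLocalRing.ResidueField A) M := by
  have : IsAlgClosed (IsLocalRing.ResidueField A) := isAlgClosed_residueField A
  apply hred_of_finrank M A
  · rw [hm_finrank_inv]
    exact Fermat.Agent.HeckeBar.dedekindPsi_pos M
  · rw [hm_finrank_inv, finrank_Fk_of_fiberData M hD]

/-- **hred at level `M`**, unconditional: for `ℓ ∤ M` and a valuation ring `A ⊂ ℚ̄` over `ℓ`, the
reduction of every integral `q`-expansion in `F_M` lies in `F_{M,k}`. -/
theorem hred_modL (M : ℕ) [NeZero M] {ℓ : ℕ} [Fact ℓ.Prime] (hℓM : ¬ ℓ ∣ M)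
    (A : ValuationSubring (AlgebraicClosure ℚ)) (hA : A.LiesOverPrime ℓ) :
    ∀ y : LaurentSeries A, coeffMap A.subtype y ∈ modularFunctionFieldBar M →
      coeffMap (IsLocalRing.residue A) y ∈
        modularFunctionFieldFullC (IsLocalRing.ResidueField A) M :=
  hred_modL_of_fiberData M A (exists_fiberData_modL' M hℓM A hA)

end Fermat.Agent.GM

end
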