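/-
Item 75a part (G_M), piece GM-N (helper27; architect helper21): the numerics of the genus formula
at an auxiliary level `M` (`4 ∣ M` or `9 ∣ M`): no elliptic points, `2 g − 2 = ψ/6 − c`.
-/
import Mathlib
import Fermat.Agent.GM.Defs
import Fermat.Agent.S20_Comb
import Fermat.Prelude.Def_ModularCurve_GenusNumerics

set_option autoImplicit false

noncomputable section

namespace Fermat.Agent.GM

open ModularCurve CongruenceSubgroup
open scoped MatrixGroups

/-- no solution of `x² + 1 = 0` modulo `4` -/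
theorem num_sq_add_one_ne_four : ∀ y : ZMod 4, y ^ 2 + 1 ≠ 0 := by decide

/-- no solution of `x² + 1 = 0` modulo `9` -/
theorem num_sq_add_one_ne_nine : ∀ y : ZMod 9, y ^ 2 + 1 ≠ 0 := by decide

/-- no solution of `x² + x + 1 = 0` modulo `4` -/
theorem num_sq_add_self_add_one_ne_four : ∀ y : ZMod 4, y ^ 2 + y + 1 ≠ 0 := by decide

/-- no solution of `x² + x + 1 = 0` modulo `9` -/
theorem num_sq_add_self_add_one_ne_nine : ∀ y : ZMod 9, y ^ 2 + y + 1 ≠ 0 := by decide

theorem nuTwo_eq_zero_of_aux {M : ℕ} (h : 4 ∣ M ∨ 9 ∣ M) : nuTwo M = 0 := by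
  unfold nuTwo
  haveI : IsEmpty {x : ZMod M // x ^ 2 + 1 = 0} := by
    refine ⟨fun ⟨x, hx⟩ => ?_⟩
    rcases h with h | h
    · have := congrArg (ZMod.castHom h (ZMod 4)) hx
      simp only [map_add, map_pow, map_one, map_zero] at this
      exact num_sq_add_one_ne_four _ this
    · have := congrArg (ZMod.castHom h (ZMod 9)) hx
      simp only [map_add, map_pow, map_one, map_zero] at this
      exact num_sq_add_one_ne_nine _ this
  exact Nat.card_of_isEmpty

theorem nuThree_eq_zero_of_aux {M : ℕ} (h : 4 ∣ M ∨ 9 ∣ M) : nuThree M = 0 := by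
  unfold nuThree
  haveI : IsEmpty {x : ZMod M // x ^ 2 + x + 1 = 0} := by
    refine ⟨fun ⟨x, hx⟩ => ?_⟩
    rcases h with h | h
    · have := congrArg (ZMod.castHom h (ZMod 4)) hx
      simp only [map_add, map_pow, map_one, map_zero] at this
      exact num_sq_add_self_add_one_ne_four _ this
    · have := congrArg (ZMod.castHom h (ZMod 9)) hx
      simp only [map_add, map_pow, map_one, map_zero] at this
      exact num_sq_add_self_add_one_ne_nine _ this
  exact Nat.card_of_isEmpty

theorem genusFormula_of_aux {M : ℕ} [NeZero M] (h : 4 ∣ M ∨ 9 ∣ M) :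
    2 * genusFormula M - 2 = (dedekindPsi M : ℚ) / 6 - cuspCount M := by
  unfold genusFormula
  rw [nuTwo_eq_zero_of_aux h, nuThree_eq_zero_of_aux h]
  push_cast
  ring

theorem dedekindPsi_four : dedekindPsi 4 = 6 := by
  have h := Fermat.Agent.S20lib.dedekindPsi_prime_mul_of_dvd (p := 2) (N := 2) Nat.prime_two
    (by norm_num) (dvd_refl 2)
  have h2 := Fermat.Agent.S20lib.dedekindPsi_prime_mul_of_not_dvd (p := 2) (N := 1) Nat.prime_two
    (by norm_num) (by norm_num)
  rw [dedekindPsi_one] at h2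
  norm_num at h h2
  rw [h, h2]

theorem dedekindPsi_nine : dedekindPsi 9 = 12 := by
  have h := Fermat.Agent.S20lib.dedekindPsi_prime_mul_of_dvd (p := 3) (N := 3) Nat.prime_three
    (by norm_num) (dvd_refl 3)
  have h2 := Fermat.Agent.S20lib.dedekindPsi_prime_mul_of_not_dvd (p := 3) (N := 1)
    Nat.prime_three (by norm_num) (by norm_num)
  rw [dedekindPsi_one] at h2
  norm_num at h h2
  rw [h, h2]

theorem cuspCount_four : cuspCount 4 = 3 := by
  unfold cuspCount
  have h : Nat.divisors 4 = {1, 2, 4} := by decide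
  rw [h]
  decide

theorem cuspCount_nine : cuspCount 9 = 4 := by
  unfold cuspCount
  have h : Nat.divisors 9 = {1, 3, 9} := by decide
  rw [h]
  decide

theorem dedekindPsi_baseLevel (ℓ : ℕ) :
    (dedekindPsi (baseLevel ℓ) : ℚ) / 6 = (cuspCount (baseLevel ℓ) : ℚ) - 2 := by
  unfold baseLevel
  split_ifs
  · rw [dedekindPsi_nine, cuspCount_nine]; norm_num
  · rw [dedekindPsi_four, cuspCount_four]; norm_num

theorem Gamma0_le_of_dvd {M₀ M : ℕ} (h : M₀ ∣ M) : Gamma0 M ≤ Gamma0 M₀ := by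
  intro g hg
  rw [Gamma0_mem] at hg ⊢
  have := congrArg (ZMod.castHom h (ZMod M₀)) hg
  simpa using this

theorem dedekindPsi_dvd {M₀ M : ℕ} [NeZero M] (h : M₀ ∣ M) : dedekindPsi M₀ ∣ dedekindPsi M := by
  have hM : M ≠ 0 := NeZero.ne M
  have hM₀ : M₀ ≠ 0 := fun h0 => hM (by rw [h0] at h; exact Nat.eq_zero_of_zero_dvd h)
  rw [← Fermat.Agent.S20lib.index_Gamma0 M hM, ← Fermat.Agent.S20lib.index_Gamma0 M₀ hM₀]
  exact Subgroup.index_dvd_of_le (Gamma0_le_of_dvd h)

end Fermat.Agent.GM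

end
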