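/-
Item 75a, part (G_M), piece GM-W (helper12): the assembly.

`genusFF_le_of_fiberData` : for `M₀ ∣ M`, `k` algebraically closed (any characteristic), with the
fibre data over the cusps at both levels (GM-R), `ψ(M₀)/6 = c(M₀) − 2` and no elliptic points at
level `M`:   `genusFormula M ≤ genusFF k F_{M,k}`.

Proof: helper12's relative Hurwitz inequality `fsHurwitz_rel_le` for `F_{M₀,k} ⊂ F_{M,k}` with
`T` = the cusps of `F_{M₀,k}`, `FFSep k jbar` (unconditional, `GoodRed/ModRR.lean`), the fundamental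
identity (`GM/FundId.lean`), the degrees `ψ` and cusp numbers (`GM/CuspsFinal.lean`), numerics.
-/
import Mathlib
import Fermat.Agent.GM.Defs
import Fermat.Agent.GM.CuspsFinal
import Fermat.Agent.GM.Numerics
import Fermat.Agent.GM.FundId
import Fermat.Agent.GoodRed.ModRR
import Fermat.Agent.RRlib.Modular
import Fermat.Agent.RRlib.HurwitzRel
import Fermat.Agent.HeckeBar.ModDeg

set_option autoImplicit false
set_option linter.style.haveILetI false

noncomputable section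

namespace Fermat.Agent.GM

open AlgebraicCurve ModularCurve IntermediateField CongruenceSubgroup
open Fermat.Agent.S24lib Fermat.Agent.FFlib Fermat.Agent.RRlib Fermat.Agent.GoodRed
open scoped MatrixGroups

section Generic

variable {k : Type} [Field k] [IsAlgClosed k] {M₀ M : ℕ} [NeZero M₀] [NeZero M]

/-- `FFSep k jbar` at every level (unconditional) -/
theorem gmw_ffSep (k : Type) [Field k] [IsAlgClosed k] (M : ℕ) [NeZero M] : FFSep k (jk k M) :=
  mr_ffSep k M

/-- principal divisors exist in `F_{M,k}` -/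
theorem gmw_hasPrincipalDivisors (k : Type) [Field k] [IsAlgClosed k] (M : ℕ) [NeZero M] :
    HasPrincipalDivisors k (Fk k M) := by
  haveI := gmw_ffSep k M
  exact ⟨fun f _ => fsExists_principal (x := jk k M) f⟩

omit [IsAlgClosed k] in
theorem gmw_algebraMap_jk (h : M₀ ∣ M) :
    letI := algK k h
    algebraMap (Fk k M₀) (Fk k M) (jk k M₀) = jk k M :=
  inclK_jk k h

theorem gmw_ffSep' (h : M₀ ∣ M) :
    letI := algK k h
    FFSep k (algebraMap (Fk k M₀) (Fk k M) (jk k M₀)) := by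
  letI := algK k h
  rw [gmw_algebraMap_jk h]
  exact gmw_ffSep k M

theorem gmw_finite (h : M₀ ∣ M) :
    letI := algK k h
    Module.Finite (Fk k M₀) (Fk k M) := by
  letI := algK k h
  haveI := isScalarTower_algK k h
  haveI := gmw_ffSep' (k := k) h
  exact (fid_finite_separable (K := k) (x := jk k M₀)).1

/-- the degree `[F_{M,k} : F_{M₀,k}]` times `ψ(M₀)` is `ψ(M)` -/
theorem gmw_dedekindPsi_mul_finrank (h : M₀ ∣ M)
    (hD₀ : Nonempty (FiberData k (Fk k M₀) k ((jk k M₀)⁻¹) (SL(2, ℤ) ⧸ Gamma0 M₀) ModularGroup.T))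
    (hD : Nonempty (FiberData k (Fk k M) k ((jk k M)⁻¹) (SL(2, ℤ) ⧸ Gamma0 M) ModularGroup.T)) :
    letI := algK k h
    dedekindPsi M₀ * Module.finrank (Fk k M₀) (Fk k M) = dedekindPsi M := by
  letI := algK k h
  have h1 := Fermat.Agent.HeckeBar.finrank_adjoin_mul_finrankAlong (inclK k h) ((jk k M₀)⁻¹)
  rw [map_inv₀, inclK_jk, finrank_Fk_of_fiberData M₀ hD₀, finrank_Fk_of_fiberData M hD] at h1
  exact h1

/-- the cusps of `F_{M,k}` form a finite set with `cuspCount M` elements -/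
theorem gmw_exists_cusps (k : Type) [Field k] [IsAlgClosed k] (M : ℕ) [NeZero M]
    (hD : Nonempty (FiberData k (Fk k M) k ((jk k M)⁻¹) (SL(2, ℤ) ⧸ Gamma0 M) ModularGroup.T)) :
    ∃ T : Finset (Place k (Fk k M)), (∀ v, v ∈ T ↔ v.ord (jk k M) < 0) ∧ T.card = cuspCount M := by
  classical
  haveI := gmw_ffSep k M
  obtain ⟨T, hT, -⟩ := fsExists_poles (K := k) (x := jk k M)
  refine ⟨T, hT, ?_⟩
  rw [← card_cusps_Fk_of_fiberData M hD]
  have e : {v : Place k (Fk k M) // 0 < v.ord ((jk k M)⁻¹)} ≃ {v // v ∈ T} :=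
    Equiv.subtypeEquivRight fun v => by
      rw [hT, v.ord_inv]
      omega
  rw [Nat.card_congr e, Nat.card_eq_fintype_card, Fintype.card_coe]

/-- the cusps of `F_{M,k}` are the places above the cusps of `F_{M₀,k}` -/
theorem gmw_sum_card_fiber (h : M₀ ∣ M)
    (T : Finset (Place k (Fk k M₀))) (hT : ∀ v, v ∈ T ↔ v.ord (jk k M₀) < 0)
    (T' : Finset (Place k (Fk k M))) (hT' : ∀ w, w ∈ T' ↔ w.ord (jk k M) < 0) :
    letI := algK k h
    haveI := isScalarTower_algK k h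
    haveI := gmw_finite (k := k) h
    haveI := gmw_hasPrincipalDivisors k M
    ∑ P ∈ T, ((P.fiber (Fk k M)).card : ℤ) = (T'.card : ℤ) := by
  classical
  letI := algK k h
  haveI := isScalarTower_algK k h
  haveI := gmw_finite (k := k) h
  haveI := gmw_hasPrincipalDivisors k M
  have hbi : T' = T.biUnion (fun P => P.fiber (Fk k M)) := by
    ext w
    rw [Finset.mem_biUnion, hT', ← gmw_algebraMap_jk h, w.ord_restrict]
    have hpos : 0 < w.ramificationIndex (Fk k M₀) := w.ramificationIndex_pos (F := Fk k M₀)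
    constructor
    · intro hw
      refine ⟨w.restrict (Fk k M₀), (hT _).2 ?_, Place.restrict_mem_fiber w⟩
      by_contra hge
      rw [not_lt] at hge
      have : 0 ≤ (w.ramificationIndex (Fk k M₀) : ℤ) * (w.restrict (Fk k M₀)).ord (jk k M₀) :=
        mul_nonneg (by exact_mod_cast hpos.le) hge
      omega
    · rintro ⟨P, hP, hw⟩
      rw [Place.mem_fiber] at hw
      rw [hw]
      have hneg := (hT P).1 hP
      have : (0 : ℤ) < (w.ramificationIndex (Fk k M₀) : ℤ) := by exact_mod_cast hpos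
      exact mul_neg_of_pos_of_neg this hneg
  rw [hbi, Finset.card_biUnion]
  · push_cast
    rfl
  · intro P _ Q _ hPQ
    rw [Function.onFun, Finset.disjoint_left]
    intro w hwP hwQ
    rw [Place.mem_fiber] at hwP hwQ
    exact hPQ (hwP.symm.trans hwQ)

/-- **relative Hurwitz over the cusps**:
`[F_{M,k} : F_{M₀,k}] · (c(M₀) − 2) − c(M) ≤ 2 g(F_{M,k}) − 2`. -/
theorem gmw_hurwitz (h : M₀ ∣ M)
    (hD₀ : Nonempty (FiberData k (Fk k M₀) k ((jk k M₀)⁻¹) (SL(2, ℤ) ⧸ Gamma0 M₀) ModularGroup.T))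
    (hD : Nonempty (FiberData k (Fk k M) k ((jk k M)⁻¹) (SL(2, ℤ) ⧸ Gamma0 M) ModularGroup.T)) :
    letI := algK k h
    (Module.finrank (Fk k M₀) (Fk k M) : ℤ) * ((cuspCount M₀ : ℤ) - 2) - (cuspCount M : ℤ)
      ≤ 2 * (genusFF k (Fk k M) : ℤ) - 2 := by
  classical
  letI := algK k h
  haveI := isScalarTower_algK k h
  haveI := gmw_finite (k := k) h
  haveI : Algebra.IsIntegral (Fk k M₀) (Fk k M) := Algebra.IsIntegral.of_finite _ _
  haveI := gmw_hasPrincipalDivisors k M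
  haveI := gmw_ffSep k M₀
  haveI := gmw_ffSep' (k := k) h
  haveI : FundamentalIdentity k (Fk k M₀) (Fk k M) :=
    fundamentalIdentity_of_ffSep (K := k) (x := jk k M₀)
  obtain ⟨T, hT, hTc⟩ := gmw_exists_cusps k M₀ hD₀
  obtain ⟨T', hT', hTc'⟩ := gmw_exists_cusps k M hD
  have hH := fsHurwitz_rel_le (K := k) (F := Fk k M₀) (F' := Fk k M) (x := jk k M₀) T
  have hsum := gmw_sum_card_fiber (k := k) h T hT T' hT'
  rw [Finset.sum_sub_distrib, Finset.sum_const, hsum, hTc, hTc', nsmul_eq_mul] at hH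
  have hg : (0 : ℤ) ≤ (Module.finrank (Fk k M₀) (Fk k M) : ℤ) * (2 * (genusFF k (Fk k M₀) : ℤ)) :=
    mul_nonneg (by positivity) (by positivity)
  nlinarith [hH, hg]

/-- **(G_M), generic form**: if `ψ(M₀)/6 = c(M₀) − 2` and `2·genusFormula M − 2 = ψ(M)/6 − c(M)`,
then `genusFormula M ≤ genusFF k F_{M,k}`. -/
theorem genusFormula_le_genusFF_of_fiberData (h : M₀ ∣ M)
    (hD₀ : Nonempty (FiberData k (Fk k M₀) k ((jk k M₀)⁻¹) (SL(2, ℤ) ⧸ Gamma0 M₀) ModularGroup.T))
    (hD : Nonempty (FiberData k (Fk k M) k ((jk k M)⁻¹) (SL(2, ℤ) ⧸ Gamma0 M) ModularGroup.T))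
    (hbase : (dedekindPsi M₀ : ℚ) / 6 = (cuspCount M₀ : ℚ) - 2)
    (haux : 2 * genusFormula M - 2 = (dedekindPsi M : ℚ) / 6 - cuspCount M) :
    genusFormula M ≤ (genusFF k (Fk k M) : ℚ) := by
  letI := algK k h
  have h1 := gmw_hurwitz (k := k) h hD₀ hD
  have h2 := gmw_dedekindPsi_mul_finrank (k := k) h hD₀ hD
  have h1' : ((Module.finrank (Fk k M₀) (Fk k M) : ℤ) : ℚ) * ((cuspCount M₀ : ℚ) - 2)
      - (cuspCount M : ℚ) ≤ 2 * (genusFF k (Fk k M) : ℚ) - 2 := by
    have := (Int.cast_le (R := ℚ)).2 h1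
    push_cast at this
    exact this
  have h2' : (dedekindPsi M₀ : ℚ) * (Module.finrank (Fk k M₀) (Fk k M) : ℚ)
      = (dedekindPsi M : ℚ) := by
    exact_mod_cast h2
  have h3 : (dedekindPsi M : ℚ) / 6 = (Module.finrank (Fk k M₀) (Fk k M) : ℚ) *
      ((cuspCount M₀ : ℚ) - 2) := by
    rw [← h2', ← hbase]
    ring
  rw [h3] at haux
  push_cast at h1'
  linarith

/-- **(G_M), generic form**, in terms of the genus over `ℚ̄`. -/
theorem genusFF_le_of_fiberData (h : M₀ ∣ M)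
    (hD₀ : Nonempty (FiberData k (Fk k M₀) k ((jk k M₀)⁻¹) (SL(2, ℤ) ⧸ Gamma0 M₀) ModularGroup.T))
    (hD : Nonempty (FiberData k (Fk k M) k ((jk k M)⁻¹) (SL(2, ℤ) ⧸ Gamma0 M) ModularGroup.T))
    (hbase : (dedekindPsi M₀ : ℚ) / 6 = (cuspCount M₀ : ℚ) - 2)
    (haux : 4 ∣ M ∨ 9 ∣ M) :
    genusFF (AlgebraicClosure ℚ) ↥(modularFunctionFieldBar M) ≤ genusFF k (Fk k M) := by
  have h1 := genusFormula_le_genusFF_of_fiberData (k := k) h hD₀ hD hbase
    (genusFormula_of_aux haux)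
  have h2 := mod_genusFF M
  rw [← h2] at h1
  exact_mod_cast h1

end Generic

/-- **(G_M)** from the fibre data at the levels `M` and `baseLevel ℓ`. -/
theorem genusFF_le_modL_of_fiberData {k : Type} [Field k] [IsAlgClosed k] (M : ℕ) [NeZero M]
    {ℓ : ℕ} (hM : IsAuxLevel ℓ M)
    (hD₀ : Nonempty (FiberData k (Fk k (baseLevel ℓ)) k ((jk k (baseLevel ℓ))⁻¹)
      (SL(2, ℤ) ⧸ Gamma0 (baseLevel ℓ)) ModularGroup.T))
    (hD : Nonempty (FiberData k (Fk k M) k ((jk k M)⁻¹) (SL(2, ℤ) ⧸ Gamma0 M) ModularGroup.T)) :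
    genusFF (AlgebraicClosure ℚ) ↥(modularFunctionFieldBar M) ≤ genusFF k (Fk k M) := by
  refine genusFF_le_of_fiberData (k := k) (baseLevel_dvd hM) hD₀ hD (dedekindPsi_baseLevel ℓ) ?_
  rcases hM.2 with ⟨-, h4⟩ | ⟨-, h9⟩
  · exact Or.inl h4
  · exact Or.inr h9

theorem not_dvd_baseLevel {ℓ M : ℕ} [Fact ℓ.Prime] (hM : IsAuxLevel ℓ M) : ¬ ℓ ∣ baseLevel ℓ :=
  fun h => hM.1 (h.trans (baseLevel_dvd hM))

end Fermat.Agent.GM
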