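/-
Item 75a, part (G_M), piece GM-W (owner helper12): THE FINAL WRAPPER.
`genusFF_le_modL`: for an auxiliary level `M` (prime to `ℓ`, divisible by the base level) and a
valuation ring `A` of `ℚ̄` over `ℓ` with residue field `k`:
  `g(X₀(M)_ℚ̄) ≤ g(F_{M,k})`.
Assembly of `genusFF_le_modL_of_fiberData` (GM/Main.lean, helper12) and
`exists_fiberData_modL'` (GM/RedMain.lean, helper4 et al.).
No sorry.
-/
import Mathlib
import Fermat.Agent.GM.Main
import Fermat.Agent.GM.RedMain
import Fermat.Agent.GoodRed.Echelon

set_option autoImplicit false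
set_option synthInstance.maxHeartbeats 400000
set_option linter.style.haveILetI false

noncomputable section

namespace Fermat.Agent.GM

open AlgebraicCurve ModularCurve ModularCurve.IgusaScheme IntermediateField CongruenceSubgroup
open Fermat.Agent.S24lib Fermat.Agent.S28lib Fermat.Agent.GoodRed
open scoped MatrixGroups

/-- **(G_M)**: the genus of `X₀(M)` in characteristic `0` is at most the genus of the function
field `F_{M,k}` in characteristic `ℓ`, for every auxiliary level `M`. -/
theorem genusFF_le_modL (M : ℕ) [NeZero M] {ℓ : ℕ} [Fact ℓ.Prime] (hM : IsAuxLevel ℓ M)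
    (A : ValuationSubring (AlgebraicClosure ℚ)) (hA : A.LiesOverPrime ℓ) :
    genusFF (AlgebraicClosure ℚ) ↥(modularFunctionFieldBar M) ≤
      genusFF (IsLocalRing.ResidueField A) (Fk (IsLocalRing.ResidueField A) M) := by
  haveI : IsAlgClosed (IsLocalRing.ResidueField A) := isAlgClosed_residueField A
  haveI : NeZero (baseLevel ℓ) := ⟨fun h0 => by
    have hd : baseLevel ℓ ∣ M := baseLevel_dvd hM
    rw [h0, zero_dvd_iff] at hd
    exact NeZero.ne M hd⟩
  exact genusFF_le_modL_of_fiberData (k := IsLocalRing.ResidueField A) M hM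
    (exists_fiberData_modL' (baseLevel ℓ) (not_dvd_baseLevel hM) A hA)
    (exists_fiberData_modL' M hM.1 A hA)

/-- **(G_M)** in the form consumed by `S18lib/Final.lean` (`s18_of_inputs`, argument `hgAll`). -/
theorem genusFF_le_modL_all {ℓ : ℕ} [Fact ℓ.Prime]
    (A : ValuationSubring (AlgebraicClosure ℚ)) (hA : A.LiesOverPrime ℓ) :
    ∀ (M : ℕ) [NeZero M], IsAuxLevel ℓ M →
      genusFF (AlgebraicClosure ℚ) (↥(modularFunctionFieldBar M)) ≤
        genusFF (IsLocalRing.ResidueField A)
          (↥(modularFunctionFieldFullC (IsLocalRing.ResidueField A) M)) :=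
  fun M _ hM => genusFF_le_modL M hM A hA

end Fermat.Agent.GM

end
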